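import Fermat.Agent.ClassNumberExtremes.Basic
import Fermat.Agent.Tau.SiegelTheorem

/-!
# The truncated series for `L(1, χ)`

`‖L(1, χ) - ∑_{m ≤ Z} χ(m)/m‖ ≤ 2 B / Z` when all partial sums are bounded by `B`.
-/

set_option autoImplicit false

noncomputable section

open Finset MeasureTheory
open FA.OrderTheta (signChar)

namespace FA.ClassNumberExtremes

open FA.Siegel (charSum tail)

variable {q : ℕ} [NeZero q] {χ : DirichletCharacter ℂ q}

theorem integrand_eq {t : ℝ} (ht : 0 < t) :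
    charSum χ t * (t : ℂ) ^ (-((1 : ℂ) + 1)) = charSum χ t * ((t ^ (-2 : ℤ) : ℝ) : ℂ) := by
  congr 1
  rw [show -((1 : ℂ) + 1) = ((-2 : ℤ) : ℂ) by norm_num, Complex.cpow_intCast]
  push_cast
  rfl

theorem integral_Ioc_charSum (hχ : χ ≠ 1) {Z : ℕ} (hZ : 1 ≤ Z) :
    ∫ t in Set.Ioc (1 : ℝ) Z, charSum χ t * (t : ℂ) ^ (-((1 : ℂ) + 1)) =
      ∑ m ∈ Icc 1 Z, χ (m : ZMod q) / m - charSum χ Z / Z := by
  induction Z, hZ using Nat.le_induction with
  | base => simp [FA.Siegel.charSum]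
  | succ Z hZ ih =>
    have hZ0 : (0 : ℝ) < Z := by exact_mod_cast hZ
    have hint := FA.Siegel.integrable_integrand hχ (s := 1) (by simp)
    have hsub : Set.Ioc (1 : ℝ) (Z + 1) ⊆ Set.Ioi 1 := Set.Ioc_subset_Ioi_self
    have h1Z : (1 : ℝ) ≤ Z := by exact_mod_cast hZ
    push_cast
    rw [← Set.Ioc_union_Ioc_eq_Ioc h1Z (by linarith : (Z : ℝ) ≤ Z + 1),
      setIntegral_union (Set.Ioc_disjoint_Ioc_of_le le_rfl) measurableSet_Ioc
        (hint.mono_set fun t ht => (ht.1 : (1 : ℝ) < t))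
        (hint.mono_set fun t ht => (lt_of_le_of_lt h1Z ht.1 : (1 : ℝ) < t)), ih]
    have hstep : ∫ t in Set.Ioc (Z : ℝ) (Z + 1), charSum χ t * (t : ℂ) ^ (-((1 : ℂ) + 1)) =
        charSum χ Z * (((Z : ℝ)⁻¹ - ((Z : ℝ) + 1)⁻¹ : ℝ) : ℂ) := by
      rw [integral_Ioc_eq_integral_Ioo, setIntegral_congr_fun measurableSet_Ioo
        (g := fun t : ℝ => charSum χ Z * ((t ^ (-2 : ℤ) : ℝ) : ℂ)) ?_, integral_const_mul,
        ← integral_Ioc_eq_integral_Ioo, integral_complex_ofReal,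
        ← intervalIntegral.integral_of_le (by linarith), integral_zpow ?_]
      · congr 2
        norm_num
        ring
      · right
        refine ⟨by norm_num, ?_⟩
        rw [Set.uIcc_of_le (by linarith)]
        exact fun h => by linarith [h.1]
      · intro t ht
        have ht0 : 0 < t := hZ0.trans ht.1
        dsimp only
        rw [integrand_eq ht0]
        congr 1
        unfold FA.Siegel.charSum
        rw [Nat.floor_natCast, show ⌊t⌋₊ = Z from (Nat.floor_eq_iff ht0.le).mpr ⟨ht.1.le, ht.2⟩]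
    rw [hstep, sum_Icc_succ_top (by omega : 1 ≤ Z + 1),
      show charSum χ ((Z : ℝ) + 1) = charSum χ Z + χ ((Z + 1 : ℕ) : ZMod q) by
        unfold FA.Siegel.charSum
        rw [show ((Z : ℝ) + 1) = ((Z + 1 : ℕ) : ℝ) by push_cast; rfl, Nat.floor_natCast,
          Nat.floor_natCast, sum_Icc_succ_top (by omega : 1 ≤ Z + 1)]]
    push_cast
    have : (Z : ℂ) ≠ 0 := by exact_mod_cast hZ0.ne'
    have : (Z : ℂ) + 1 ≠ 0 := by exact_mod_cast (by positivity : (Z : ℝ) + 1 ≠ 0)
    field_simp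
    ring

/-- **The truncation error** of the series of `L(1, χ)`. -/
theorem norm_LFunction_sub_le (hχ : χ ≠ 1) {B : ℝ} (hB : ∀ L : ℕ, ‖charSum χ L‖ ≤ B) {Z : ℕ}
    (hZ : 1 ≤ Z) :
    ‖DirichletCharacter.LFunction χ 1 - ∑ m ∈ Icc 1 Z, χ (m : ZMod q) / m‖ ≤ 2 * B / Z := by
  have hZ0 : (0 : ℝ) < Z := by exact_mod_cast hZ
  have h1Z : (1 : ℝ) ≤ Z := by exact_mod_cast hZ
  have hint := FA.Siegel.integrable_integrand hχ (s := 1) (by simp)
  have hS : ∀ t : ℝ, ‖charSum χ t‖ ≤ B := fun t => by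
    have := hB ⌊t⌋₊
    unfold FA.Siegel.charSum at this ⊢
    rwa [Nat.floor_natCast] at this
  rw [FA.Siegel.lfunction_eq hχ (by simp), one_mul, FA.Siegel.tail,
    ← Set.Ioc_union_Ioi_eq_Ioi h1Z, setIntegral_union (Set.Ioc_disjoint_Ioi le_rfl)
      measurableSet_Ioi (hint.mono_set Set.Ioc_subset_Ioi_self)
      (hint.mono_set (Set.Ioi_subset_Ioi h1Z)), integral_Ioc_charSum hχ hZ]
  have h1 : ‖charSum χ Z / Z‖ ≤ B / Z := by
    rw [norm_div, Complex.norm_natCast]
    exact div_le_div_of_nonneg_right (hS _) hZ0.le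
  have h2 : ‖∫ t in Set.Ioi (Z : ℝ), charSum χ t * (t : ℂ) ^ (-((1 : ℂ) + 1))‖ ≤ B / Z := by
    refine (norm_integral_le_of_norm_le ((integrableOn_Ioi_rpow_of_lt (a := -((1 : ℝ) + 1))
      (by norm_num) hZ0).const_mul B) ?_).trans (le_of_eq ?_)
    · filter_upwards [ae_restrict_mem measurableSet_Ioi] with t ht
      have ht0 : 0 < t := hZ0.trans ht
      rw [FA.Siegel.norm_integrand ht0, Complex.one_re]
      exact mul_le_mul_of_nonneg_right (hS t) (Real.rpow_nonneg ht0.le _)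
    · rw [integral_const_mul, integral_Ioi_rpow_of_lt (by norm_num) hZ0,
        show -((1 : ℝ) + 1) + 1 = ((-1 : ℤ) : ℝ) by norm_num, Real.rpow_intCast]
      norm_num [div_eq_mul_inv]
  rw [show ∀ a b c : ℂ, a - b + c - a = c - b from fun a b c => by ring]
  refine (norm_sub_le _ _).trans ((add_le_add h2 h1).trans (le_of_eq ?_))
  ring

variable {n : ℕ} [NeZero n]

/-- The real number `L(1, (-n / ·))`. -/
def LVal (n : ℕ) [NeZero n] : ℝ :=
  haveI : NeZero (4 * n) := ⟨mul_ne_zero four_ne_zero (NeZero.ne n)⟩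
  (DirichletCharacter.LFunction (signChar n) 1).re

theorem LFunction_eq_LVal : DirichletCharacter.LFunction (signChar n) 1 = (LVal n : ℂ) := by
  have h := FA.Siegel.lfunction_eq_ofReal (FA.OrderTheta.signChar_ne_one (n := n)) signChar_sq
    one_pos
  rw [Complex.ofReal_one] at h
  exact h

theorem LVal_pos : 0 < LVal n :=
  FA.Siegel.LFunction_one_re_pos (FA.OrderTheta.signChar_ne_one (n := n)) signChar_sq

theorem LVal_le_log : LVal n ≤ 1 + Real.log (4 * n) := by
  have h := FA.Siegel.norm_LFunction_one_le (FA.OrderTheta.signChar_ne_one (n := n))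
  rw [LFunction_eq_LVal, Complex.norm_real, Real.norm_eq_abs, Nat.cast_mul, Nat.cast_ofNat] at h
  exact (le_abs_self _).trans h

/-- The class number formula in real form. -/
theorem card_cl_eq (hn : 1 < n) :
    (Nat.card (FA.OrderTheta.Cl n) : ℝ) = 2 * Real.sqrt n / Real.pi * LVal n := by
  have := FA.OrderTheta.finite_cl (N := n)
  let _ : Fintype (FA.OrderTheta.Cl n) := Fintype.ofFinite _
  have h := FA.OrderTheta.lFunction_one_eq hn
  rw [LFunction_eq_LVal] at h
  have h' := Complex.ofReal_inj.mp h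
  rw [h']
  have : Real.sqrt n ≠ 0 := (Real.sqrt_pos.mpr (by exact_mod_cast NeZero.pos n)).ne'
  field_simp

theorem abs_LVal_sub_le (h4 : n % 4 = 1) {Z : ℕ} (hZ : 1 ≤ Z) :
    |LVal n - ∑ m ∈ Icc 1 Z, jn n m / m| ≤
      2 * (2 * Real.sqrt n * (1 + Real.log (4 * n))) / Z := by
  have hB : ∀ L : ℕ,
      ‖charSum (signChar n) L‖ ≤ 2 * Real.sqrt n * (1 + Real.log (4 * n)) := fun L => by
    unfold FA.Siegel.charSum
    simp only [Nat.floor_natCast, signChar_natCast]
    rw [← Complex.ofReal_sum, Complex.norm_real, Real.norm_eq_abs]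
    exact abs_sum_jn_le h4 L
  have h := norm_LFunction_sub_le (FA.OrderTheta.signChar_ne_one (n := n)) hB hZ
  rw [LFunction_eq_LVal] at h
  simp only [signChar_natCast] at h
  rw [← Real.norm_eq_abs, ← Complex.norm_real]
  refine le_trans (le_of_eq ?_) h
  congr 1
  push_cast
  rfl

end FA.ClassNumberExtremes
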