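import Fermat.Agent.ClassNumberExtremes.Basic
import Mathlib.Analysis.PSeries

/-!
# The average of `(-(a + M k) / m)` over `k`

The primes of `M` are at most `y` and all odd primes up to `y` divide `M`. The average is constant
for a `y`-smooth `m`; it is at most `m / K` in absolute value unless the part of `m` free of primes
`≤ y` is a square.
-/

set_option autoImplicit false

noncomputable section

open Finset

namespace FA.ClassNumberExtremes

/-- All prime factors are at most `y`. -/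
def SmoothUp (y m : ℕ) : Prop := ∀ p : ℕ, p.Prime → p ∣ m → p ≤ y

/-- All prime factors exceed `y`. -/
def RoughUp (y m : ℕ) : Prop := ∀ p : ℕ, p.Prime → p ∣ m → y < p

theorem exists_split (y : ℕ) {m : ℕ} (hm : m ≠ 0) :
    ∃ u v : ℕ, m = u * v ∧ SmoothUp y u ∧ RoughUp y v := by
  induction m using induction_on_primes with
  | zero => exact absurd rfl hm
  | one => exact ⟨1, 1, rfl, fun p hp h => absurd (Nat.dvd_one.mp h) hp.ne_one,
      fun p hp h => absurd (Nat.dvd_one.mp h) hp.ne_one⟩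
  | prime_mul p a hp ih =>
    obtain ⟨u, v, rfl, hu, hv⟩ := ih (right_ne_zero_of_mul hm)
    rcases le_or_gt p y with h | h
    · refine ⟨p * u, v, by ring, fun q hq hd => ?_, hv⟩
      rcases hq.dvd_mul.mp hd with h' | h'
      exacts [((Nat.prime_dvd_prime_iff_eq hq hp).mp h') ▸ h, hu q hq h']
    · refine ⟨u, p * v, by ring, hu, fun q hq hd => ?_⟩
      rcases hq.dvd_mul.mp hd with h' | h'
      exacts [((Nat.prime_dvd_prime_iff_eq hq hp).mp h') ▸ h, hv q hq h']

theorem jn_smooth_congr {y M a : ℕ} (hM : ∀ q : ℕ, q.Prime → q ≠ 2 → q ≤ y → q ∣ M) (k : ℕ)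
    {m : ℕ} (hm : SmoothUp y m) : jn (a + M * k) m = jn a m := by
  induction m using induction_on_primes with
  | zero => rw [jn_zero, jn_zero]
  | one => rw [jn_one, jn_one]
  | prime_mul p b hp ih =>
    rw [jn_mul, jn_mul, ih fun q hq h => hm q hq (h.mul_left p)]
    congr 1
    rcases eq_or_ne p 2 with rfl | h2
    · rw [jn_even _ (by decide), jn_even _ (by decide)]
    obtain ⟨r, hr⟩ := hM p hp h2 (hm p hp (dvd_mul_right p b))
    rw [jn_odd _ (hp.odd_of_ne_two h2), jn_odd _ (hp.odd_of_ne_two h2),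
      jacobiSym.mod_left' (a₁ := -((a + M * k : ℕ) : ℤ)) (a₂ := -(a : ℤ))
        (Int.modEq_iff_dvd.mpr ⟨(r : ℤ) * k, by rw [hr]; push_cast; ring⟩)]

/-- A number that is no square has a symbol equal to `-1`. -/
theorem exists_jacobi_neg_one {m : ℕ} (hodd : Odd m) (hsq : ¬ IsSquare m) :
    ∃ z : ℕ, jacobiSym z m = -1 := by
  obtain ⟨s, b, hbs, hs⟩ := Nat.sq_mul_squarefree m
  have hm0 : m ≠ 0 := hodd.pos.ne'
  have hs1 : s ≠ 1 := fun h => hsq ⟨b, by rw [← hbs, h]; ring⟩
  obtain ⟨p, hp, hps⟩ := Nat.exists_prime_and_dvd hs1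
  have := Fact.mk hp
  have hb0 : b ≠ 0 := fun h => hm0 (by rw [← hbs, h]; simp)
  have he : Odd (m.factorization p) := by
    have h1 : s.factorization p = 1 := le_antisymm (Squarefree.natFactorization_le_one p hs)
      (Nat.Prime.factorization_pos_of_dvd hp hs.ne_zero hps)
    rw [← hbs, Nat.factorization_mul (pow_ne_zero 2 hb0) hs.ne_zero, Nat.factorization_pow]
    simp [h1]
  have hp2 : p ≠ 2 := fun h => by
    subst h
    have : 2 ∣ m := hps.trans (hbs ▸ dvd_mul_left s (b ^ 2))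
    obtain ⟨r, rfl⟩ := hodd
    omega
  set r := m / p ^ m.factorization p with hr
  obtain ⟨z, hz1, hz2⟩ := FA.Twists.exists_nonresidue hp2 (Nat.not_dvd_ordCompl hp hm0)
  refine ⟨z, ?_⟩
  conv_lhs => rw [← Nat.ordProj_mul_ordCompl_eq_self m p]
  rw [jacobiSym.mul_right' _ (pow_ne_zero _ hp.ne_zero)
    (Nat.ordCompl_pos p hm0).ne', jacobiSym.pow_right, hz2,
    FA.Twists.jacobiSym_eq_one_of_dvd hz1, he.neg_one_pow, mul_one]

theorem symbolChar_intCast (v : ℕ) [NeZero v] (z : ℤ) :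
    FA.Twists.symbolChar v (z : ZMod v) = (jacobiSym z v : ℂ) := by
  show ((jacobiSym (((z : ZMod v).val : ℕ) : ℤ) v : ℤ) : ℂ) = _
  rw [ZMod.val_intCast, ← jacobiSym.mod_left]

/-- A symbol that is no square averages to zero along a progression. -/
theorem abs_sum_jn_progression_le {v M : ℕ} (a K : ℕ) (hv : Odd v) (hsq : ¬ IsSquare v)
    (hcop : M.Coprime v) : |∑ k ∈ range K, jn (a + M * (k + 1)) v| ≤ v := by
  have : NeZero v := ⟨hv.pos.ne'⟩
  set ψ := FA.Twists.symbolChar v with hψ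
  have hne : ψ ≠ 1 := fun e => by
    obtain ⟨z, hz⟩ := exists_jacobi_neg_one hv hsq
    have h := FA.Twists.symbolChar_natCast v z
    rw [← hψ, e, hz] at h
    by_cases hu : IsUnit (z : ZMod v)
    · rw [MulChar.one_apply hu] at h; norm_num at h
    · rw [MulChar.map_nonunit _ hu] at h; norm_num at h
  set F : ℕ → ℂ := fun k => ψ (-((a : ZMod v) + (M : ZMod v) * ((k : ZMod v) + 1))) with hF
  have hval : ∀ k : ℕ, (jn (a + M * (k + 1)) v : ℂ) = F k := fun k => by
    have h := symbolChar_intCast v (-((a + M * (k + 1) : ℕ) : ℤ))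
    push_cast at h
    rw [hF, hψ]
    dsimp only
    rw [h, jn_odd _ hv]
    push_cast
    rfl
  have hzero : ∑ k ∈ range v, F k = 0 := by
    rw [← MulChar.sum_eq_zero_of_ne_one hne]
    set u := ZMod.unitOfCoprime M hcop with hu
    refine Finset.sum_nbij' (fun k : ℕ => -((a : ZMod v) + (M : ZMod v) * ((k : ZMod v) + 1)))
      (fun x => ((u⁻¹ : (ZMod v)ˣ) * (-x - (a : ZMod v)) - 1 : ZMod v).val) (by simp)
      (fun x _ => Finset.mem_coe.2 (Finset.mem_range.2 (ZMod.val_lt _))) (fun k hk => ?_)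
      (fun x _ => ?_) (fun _ _ => rfl)
    · have hM : (M : ZMod v) = (u : ZMod v) := (ZMod.coe_unitOfCoprime M hcop).symm
      rw [neg_neg, add_sub_cancel_left, hM, Units.inv_mul_cancel_left, add_sub_cancel_right,
        ZMod.val_cast_of_lt (Finset.mem_range.1 hk)]
    · have hM : (M : ZMod v) = (u : ZMod v) := (ZMod.coe_unitOfCoprime M hcop).symm
      rw [ZMod.natCast_zmod_val, hM, sub_add_cancel, Units.mul_inv_cancel_left]
      ring
  have hper : ∀ k, F (k + v) = F k := fun k => by simp [hF]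
  have h := FA.Siegel.norm_sum_range_le_of_periodic hper hzero
    (fun k => ψ.norm_le_one _) hv.pos K
  simp only [← hval] at h
  rw [← Complex.ofReal_sum, Complex.norm_real, Real.norm_eq_abs] at h
  exact h

section average

variable {y M a : ℕ} (hMq : ∀ q : ℕ, q.Prime → q ≠ 2 → q ≤ y → q ∣ M)
  (hMp : ∀ q : ℕ, q.Prime → q ∣ M → q ≤ max 2 y)

include hMq hMp in
/-- The three cases for the inner sum. -/
theorem inner_cases (hy : 2 ≤ y) (K : ℕ) {m : ℕ} (hodd : Odd m) :
    (SmoothUp y m ∧ ∑ k ∈ range K, jn (a + M * (k + 1)) m = K * jn a m) ∨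
    (∃ u j : ℕ, m = u * j ^ 2 ∧ SmoothUp y u ∧ y < j ∧
      ∑ k ∈ range K, jn (a + M * (k + 1)) m = jn a u * ∑ k ∈ range K, jn (a + M * (k + 1)) j ^ 2) ∨
    (¬ SmoothUp y m ∧ |∑ k ∈ range K, jn (a + M * (k + 1)) m| ≤ m) := by
  obtain ⟨u, v, rfl, hu, hv⟩ := exists_split y hodd.pos.ne'
  have hou := Nat.Odd.of_mul_left hodd
  have hov := Nat.Odd.of_mul_right hodd
  have hsum : ∑ k ∈ range K, jn (a + M * (k + 1)) (u * v) =
      jn a u * ∑ k ∈ range K, jn (a + M * (k + 1)) v := by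
    rw [Finset.mul_sum]
    exact Finset.sum_congr rfl fun k _ => by rw [jn_mul, jn_smooth_congr hMq _ hu]
  by_cases hv1 : v = 1
  · subst hv1
    refine Or.inl ⟨by rwa [mul_one], ?_⟩
    rw [hsum]
    simp [jn_one, mul_comm]
  obtain ⟨p, hp, hpv⟩ := Nat.exists_prime_and_dvd hv1
  by_cases hsq : IsSquare v
  · obtain ⟨j, rfl⟩ := hsq
    refine Or.inr (Or.inl ⟨u, j, by ring, hu, ?_, ?_⟩)
    · have hpj : p ∣ j := (hp.dvd_mul.mp hpv).elim id id
      exact (hv p hp hpv).trans_le (Nat.le_of_dvd (Nat.pos_of_ne_zero fun h => by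
        simp [h] at hov) hpj)
    · rw [hsum]
      congr 1
      exact Finset.sum_congr rfl fun k _ => by rw [jn_mul, sq]
  · refine Or.inr (Or.inr ⟨fun h => ?_, ?_⟩)
    · have := h p hp (hpv.mul_left u)
      have := hv p hp hpv
      omega
    · have hcop : M.Coprime v := Nat.coprime_of_dvd fun q hq hqM hqv => by
        have := hMp q hq hqM
        have := hv q hq hqv
        omega
      rw [hsum, abs_mul]
      refine (mul_le_of_le_one_left (abs_nonneg _) (abs_jn_le a u)).trans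
        ((abs_sum_jn_progression_le a K hov hsq hcop).trans ?_)
      push_cast
      exact le_mul_of_one_le_left (Nat.cast_nonneg v) (by exact_mod_cast hou.pos)

include hMq in
theorem jn_eq_one_of_smooth (ha : ∀ q : ℕ, q.Prime → q ≠ 2 → q ≤ y → jn a q = 1) {m : ℕ}
    (hodd : Odd m) (hm : SmoothUp y m) : jn a m = 1 := by
  induction m using induction_on_primes with
  | zero => simp at hodd
  | one => exact jn_one a
  | prime_mul p b hp ih =>
    have h2 : p ≠ 2 := fun h => by subst h; exact absurd (Nat.Odd.of_mul_left hodd) (by decide)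
    rw [jn_mul, ha p hp h2 (hm p hp (dvd_mul_right p b)),
      ih (Nat.Odd.of_mul_right hodd) (fun q hq h => hm q hq (h.mul_left p)), mul_one]

include hMq hMp in
/-- The inner sum from below, when the small primes split. -/
theorem inner_ge (hy : 2 ≤ y) (ha : ∀ q : ℕ, q.Prime → q ≠ 2 → q ≤ y → jn a q = 1) (K m : ℕ) :
    (if Odd m ∧ m ≤ y then (K : ℝ) else 0) - m ≤ ∑ k ∈ range K, jn (a + M * (k + 1)) m := by
  have hm : (0 : ℝ) ≤ m := Nat.cast_nonneg m
  by_cases hodd : Odd m
  · rcases inner_cases hMq hMp (a := a) hy K hodd with ⟨hs, e⟩ | ⟨u, j, rfl, hu, hj, e⟩ | ⟨hns, h⟩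
    · rw [e, jn_eq_one_of_smooth hMq ha hodd hs]
      split_ifs <;> linarith [(Nat.cast_nonneg K : (0 : ℝ) ≤ K)]
    · rw [e, jn_eq_one_of_smooth hMq ha (Nat.Odd.of_mul_left hodd) hu, one_mul]
      have h0 : (0 : ℝ) ≤ ∑ k ∈ range K, jn (a + M * (k + 1)) j ^ 2 :=
        Finset.sum_nonneg fun k _ => sq_nonneg _
      rw [if_neg]
      · linarith
      · rintro ⟨-, h⟩
        have h1 : 1 ≤ u := (Nat.Odd.of_mul_left hodd).pos
        nlinarith
    · rw [if_neg fun h' => hns fun p hp hd => (Nat.le_of_dvd hodd.pos hd).trans h'.2]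
      linarith [(abs_le.mp h).1]
  · rw [if_neg fun h => hodd h.1, Finset.sum_eq_zero fun k _ => jn_even _ hodd]
    linarith

open scoped Classical in
include hMq hMp in
/-- The inner sum from above. -/
theorem inner_le (hy : 2 ≤ y) (K m : ℕ) :
    ∑ k ∈ range K, jn (a + M * (k + 1)) m ≤ (if SmoothUp y m then (K : ℝ) * jn a m else 0) +
      (if ∃ u j : ℕ, m = u * j ^ 2 ∧ SmoothUp y u ∧ y < j then (K : ℝ) else 0) + m := by
  have hm : (0 : ℝ) ≤ m := Nat.cast_nonneg m
  by_cases hodd : Odd m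
  · rcases inner_cases hMq hMp (a := a) hy K hodd with ⟨hs, e⟩ | ⟨u, j, rfl, hu, hj, e⟩ | ⟨hns, h⟩
    · rw [e, if_pos hs]
      split_ifs <;> linarith [(Nat.cast_nonneg K : (0 : ℝ) ≤ K)]
    · have hns : ¬ SmoothUp y (u * j ^ 2) ∨ SmoothUp y (u * j ^ 2) := (Classical.em _).symm
      rw [if_pos (⟨u, j, rfl, hu, hj⟩ : ∃ u' j' : ℕ, u * j ^ 2 = u' * j' ^ 2 ∧ SmoothUp y u' ∧
        y < j'), e]
      rcases hns with hns | hs
      · rw [if_neg hns]
        have h1 : |jn a u * ∑ k ∈ range K, jn (a + M * (k + 1)) j ^ 2| ≤ 1 * K := by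
          rw [abs_mul]
          refine mul_le_mul (abs_jn_le _ _) ?_ (abs_nonneg _) zero_le_one
          refine (Finset.abs_sum_le_sum_abs _ _).trans ?_
          have hb : ∀ k ∈ range K, |jn (a + M * (k + 1)) j ^ 2| ≤ (1 : ℝ) := fun k _ => by
            rw [abs_pow]
            exact pow_le_one₀ (abs_nonneg _) (abs_jn_le _ _)
          simpa using Finset.sum_le_sum hb
        linarith [(abs_le.mp h1).2]
      · rw [if_pos hs, ← e]
        have e' : ∑ k ∈ range K, jn (a + M * (k + 1)) (u * j ^ 2) = K * jn a (u * j ^ 2) := by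
          simp [jn_smooth_congr hMq _ hs]
        linarith [(Nat.cast_nonneg K : (0 : ℝ) ≤ K)]
    · rw [if_neg hns]
      split_ifs <;> linarith [(abs_le.mp h).2, (Nat.cast_nonneg K : (0 : ℝ) ≤ K)]
  · rw [Finset.sum_eq_zero fun k _ => jn_even _ hodd, jn_even a hodd]
    split_ifs <;> simp <;> positivity

end average

end FA.ClassNumberExtremes
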