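import Fermat.Agent.ThetaOne.OrderClassFormula
import Fermat.Agent.Root.SummaryPolyaVinogradov
import Fermat.Agent.Tau.SiegelBound

/-!
# The character `(-n / ·)` modulo `4 n` as a real arithmetic function

`jn n m` is the value of `signChar n` at `m`. For a squarefree `n ≡ 1 (mod 4)` the character is
primitive, and for every `n ≡ 1 (mod 4)` its partial sums are at most `2 √n (1 + log (4 n))`.
-/

set_option autoImplicit false

noncomputable section

open Finset
open FA.OrderTheta (signChar)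

namespace FA.ClassNumberExtremes

/-- The Jacobi symbol `(-n / m)` at the odd `m`, zero at the even ones. -/
def jn (n m : ℕ) : ℝ := if Odd m then (jacobiSym (-(n : ℤ)) m : ℝ) else 0

theorem jn_even {m : ℕ} (n : ℕ) (h : ¬ Odd m) : jn n m = 0 := if_neg h

theorem jn_odd {m : ℕ} (n : ℕ) (h : Odd m) : jn n m = (jacobiSym (-(n : ℤ)) m : ℝ) := if_pos h

theorem jn_one (n : ℕ) : jn n 1 = 1 := by rw [jn_odd n odd_one]; simp

theorem jn_zero (n : ℕ) : jn n 0 = 0 := jn_even n (by simp)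

theorem abs_jn_le (n m : ℕ) : |jn n m| ≤ 1 := by
  rcases Classical.em (Odd m) with h | h
  · rw [jn_odd n h]
    rcases jacobiSym.trichotomy (-(n : ℤ)) m with e | e | e <;> simp [e]
  · simp [jn_even n h]

theorem jn_mul (n a b : ℕ) : jn n (a * b) = jn n a * jn n b := by
  by_cases ha : Odd a
  · by_cases hb : Odd b
    · rw [jn_odd n (ha.mul hb), jn_odd n ha, jn_odd n hb,
        jacobiSym.mul_right' _ ha.pos.ne' hb.pos.ne', Int.cast_mul]
    · rw [jn_even n hb, mul_zero, jn_even n fun h => hb (Nat.odd_mul.mp h).2]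
  · rw [jn_even n ha, zero_mul, jn_even n fun h => ha (Nat.odd_mul.mp h).1]

variable {n : ℕ} [NeZero n]

theorem signChar_natCast (m : ℕ) : signChar n (m : ZMod (4 * n)) = (jn n m : ℂ) := by
  have : NeZero (4 * n) := ⟨mul_ne_zero four_ne_zero (NeZero.ne n)⟩
  by_cases hc : m.Coprime (4 * n)
  · have ho : Odd m :=
      Nat.coprime_two_right.mp (hc.coprime_dvd_right (Dvd.dvd.mul_right (by norm_num) n))
    rw [jn_odd n ho]
    unfold FA.OrderTheta.signChar
    rw [FA.Twists.twistChar_natCast _ hc]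
    push_cast
    rfl
  · rw [MulChar.map_nonunit _ fun h => hc ((ZMod.isUnit_iff_coprime _ _).mp h)]
    by_cases ho : Odd m
    · have hn : ¬ m.Coprime n := fun h => hc
        (Nat.Coprime.mul_right ((Nat.coprime_two_right.mpr ho).pow_right 2) h)
      rw [jn_odd n ho, (jacobiSym.eq_zero_iff).mpr ⟨ho.pos.ne', by
        simpa [Int.gcd_eq_natAbs, Nat.coprime_comm] using hn⟩]
      simp
    · simp [jn_even n ho]

theorem signChar_sq : signChar n ^ 2 = 1 := by
  have : NeZero (4 * n) := ⟨mul_ne_zero four_ne_zero (NeZero.ne n)⟩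
  refine MulChar.ext fun u => ?_
  rw [MulChar.pow_apply_coe, MulChar.one_apply_coe, sq]
  exact FA.Twists.twistChar_sq _ u

/-- For a squarefree `n ≡ 1 (mod 4)` the character `(-n / ·)` is primitive modulo `4 n`. -/
theorem signChar_isPrimitive (hsq : Squarefree n) (h4 : n % 4 = 1) :
    (signChar n).IsPrimitive := by
  have h0 := NeZero.ne n
  have : NeZero (4 * n) := ⟨mul_ne_zero four_ne_zero h0⟩
  rw [DirichletCharacter.isPrimitive_def]
  by_contra hne
  obtain ⟨k, hk⟩ := DirichletCharacter.conductor_dvd_level (signChar n)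
  have hk1 : k ≠ 1 := fun h => hne (by rw [h, mul_one] at hk; exact hk.symm)
  obtain ⟨p, hp, hpk⟩ := Nat.exists_prime_and_dvd hk1
  have := Fact.mk hp
  have hnat : (-(n : ℤ)).natAbs = n := by simp
  have : NeZero (4 * (-(n : ℤ)).natAbs) := ⟨by simp [h0]⟩
  have hd : DirichletCharacter.conductor (signChar n) ∣ 4 * n / p :=
    ⟨k / p, by rw [← Nat.mul_div_assoc _ hpk, ← hk]⟩
  have hp4 : p ∣ 4 * n := hk ▸ Dvd.dvd.mul_left hpk _
  have hdiv : 4 * n / p ∣ 4 * n := Nat.div_dvd_of_dvd hp4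
  have hF := (DirichletCharacter.factorsThrough_conductor (signChar n)).mono _ hd hdiv
  obtain ⟨m, hm, hval⟩ := FA.Twists.twistChar_nondegenerate (D := -(n : ℤ))
    (Int.squarefree_natAbs.mp (by rw [hnat]; exact hsq)) (by omega) (p := p)
    (by rw [hnat]; exact hp4)
  have hmd : (m : ZMod (4 * n / p)) = 1 := by
    rw [hnat] at hm
    have h := ((ZMod.intCast_zmod_eq_zero_iff_dvd ((m : ℤ) - 1) _).mpr hm)
    push_cast at h
    exact sub_eq_zero.mp h
  have hcop : m.Coprime (4 * (-(n : ℤ)).natAbs) := by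
    by_contra hc
    rw [MulChar.map_nonunit _ fun h => hc ((ZMod.isUnit_iff_coprime _ _).mp h)] at hval
    norm_num at hval
  have hv : jacobiSym (-(n : ℤ)) m = -1 := by
    rw [FA.Twists.twistChar_natCast _ hcop] at hval
    exact_mod_cast hval
  rw [hnat] at hcop
  have hodd : Odd m :=
    Nat.coprime_two_right.mp (hcop.coprime_dvd_right (Dvd.dvd.mul_right (by norm_num) n))
  have hker : ZMod.unitOfCoprime m hcop ∈ (ZMod.unitsMap hdiv).ker := by
    refine MonoidHom.mem_ker.mpr (Units.ext ?_)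
    rw [ZMod.unitsMap_val, ZMod.coe_unitOfCoprime, ZMod.cast_natCast hdiv, hmd, Units.val_one]
  have h1 := MonoidHom.mem_ker.mp
    ((DirichletCharacter.factorsThrough_iff_ker_unitsMap hdiv).mp hF hker)
  have h2 : signChar n (m : ZMod (4 * n)) = 1 := by
    have := congrArg Units.val h1
    rwa [MulChar.coe_toUnitHom, ZMod.coe_unitOfCoprime, Units.val_one] at this
  rw [signChar_natCast, jn_odd n hodd, hv] at h2
  norm_num at h2

/-- The partial sums for a squarefree `n ≡ 1 (mod 4)`. -/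
theorem abs_sum_jn_le_of_squarefree (hsq : Squarefree n) (h4 : n % 4 = 1) (L : ℕ) :
    |∑ m ∈ Icc 1 L, jn n m| ≤ Real.sqrt (4 * n) * (1 + Real.log (4 * n)) := by
  have : NeZero (4 * n) := ⟨mul_ne_zero four_ne_zero (NeZero.ne n)⟩
  have h := FA.Summary.polyaVinogradov (by omega : 1 < 4 * n) (signChar_isPrimitive hsq h4) 1 L
  have e : ∑ i ∈ range L, signChar n (((1 : ℤ) + (i : ℤ) : ℤ) : ZMod (4 * n)) =
      ((∑ m ∈ Icc 1 L, jn n m : ℝ) : ℂ) := by
    rw [show Icc 1 L = Ico (0 + 1) (L + 1) from rfl, ← Finset.sum_Ico_add' (fun m => jn n m),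
      ← Finset.range_eq_Ico, Complex.ofReal_sum]
    refine Finset.sum_congr rfl fun i _ => ?_
    rw [show ((1 : ℤ) + (i : ℤ)) = ((i + 1 : ℕ) : ℤ) by push_cast; ring, Int.cast_natCast,
      signChar_natCast]
  rw [e, Complex.norm_real, Real.norm_eq_abs] at h
  push_cast at h
  exact h

theorem jn_sq_mul {f n₀ : ℕ} (hf : Odd f) (m : ℕ) :
    jn (f ^ 2 * n₀) m = if m.Coprime f then jn n₀ m else 0 := by
  by_cases ho : Odd m
  · rw [jn_odd _ ho, jn_odd _ ho,
      show (-((f ^ 2 * n₀ : ℕ) : ℤ)) = (f : ℤ) ^ 2 * -(n₀ : ℤ) by push_cast; ring,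
      jacobiSym.mul_left]
    split_ifs with hc
    · rw [jacobiSym.sq_one' (by simpa [Int.gcd_eq_natAbs, Nat.coprime_comm] using hc), one_mul]
    · rw [jacobiSym.pow_left, (jacobiSym.eq_zero_iff).mpr ⟨ho.pos.ne', by
        simpa [Int.gcd_eq_natAbs, Nat.coprime_comm] using hc⟩]
      simp
  · simp [jn_even _ ho]

omit [NeZero n] in
theorem exists_core (h4 : n % 4 = 1) :
    ∃ f n₀ : ℕ, n = f ^ 2 * n₀ ∧ Squarefree n₀ ∧ n₀ % 4 = 1 ∧ Odd f := by
  obtain ⟨s, f, h, hs⟩ := Nat.sq_mul_squarefree n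
  have hf : Odd f := by
    rcases Nat.even_or_odd f with ⟨r, rfl⟩ | h'
    · exfalso
      have : n = 4 * (r ^ 2 * s) := by rw [← h]; ring
      omega
    · exact h'
  refine ⟨f, s, h.symm, hs, ?_, hf⟩
  obtain ⟨r, rfl⟩ := hf
  have : n = 4 * ((r ^ 2 + r) * s) + s := by rw [← h]; ring
  omega

/-- **Pólya–Vinogradov** for `(-n / ·)`, `n ≡ 1 (mod 4)`, squarefree or not. -/
theorem abs_sum_jn_le (h4 : n % 4 = 1) (L : ℕ) :
    |∑ m ∈ Icc 1 L, jn n m| ≤ 2 * Real.sqrt n * (1 + Real.log (4 * n)) := by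
  obtain ⟨f, n₀, hn, hsq, h04, hf⟩ := exists_core h4
  have : NeZero n₀ := ⟨hsq.ne_zero⟩
  have hf0 : f ≠ 0 := hf.pos.ne'
  have hsum : ∑ m ∈ Icc 1 L, jn n m = ∑ e ∈ f.divisors,
      (ArithmeticFunction.moebius e : ℝ) * (jn n₀ e * ∑ j ∈ Icc 1 (L / e), jn n₀ j) := by
    have h1 : ∀ m, jn n m = ∑ e ∈ f.divisors,
        if e ∣ m then (ArithmeticFunction.moebius e : ℝ) * jn n₀ m else 0 := by
      intro m
      rw [hn, jn_sq_mul hf m, ← Finset.sum_filter, ← Finset.sum_mul]
      have hdiv : f.divisors.filter (· ∣ m) = (Nat.gcd m f).divisors := by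
        ext e
        simp only [Finset.mem_filter, Nat.mem_divisors, Nat.dvd_gcd_iff]
        exact ⟨fun ⟨⟨a, _⟩, b⟩ => ⟨⟨b, a⟩, Nat.gcd_ne_zero_right hf0⟩,
          fun ⟨⟨b, a⟩, _⟩ => ⟨⟨a, hf0⟩, b⟩⟩
      rw [hdiv, ← Int.cast_sum, ← ArithmeticFunction.coe_mul_zeta_apply,
        ArithmeticFunction.moebius_mul_coe_zeta, ArithmeticFunction.one_apply]
      by_cases hc : m.Coprime f
      · rw [if_pos hc, if_pos hc]; simp
      · rw [if_neg hc, if_neg hc]; simp
    simp only [h1]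
    rw [Finset.sum_comm]
    refine Finset.sum_congr rfl fun e he => ?_
    have he0 : 0 < e := Nat.pos_of_mem_divisors he
    rw [← Finset.sum_filter, Finset.mul_sum, Finset.mul_sum]
    symm
    refine Finset.sum_nbij' (fun j => e * j) (fun m => m / e) ?_ ?_ ?_ ?_ ?_
    · intro j hj
      rw [mem_Icc] at hj
      rw [mem_filter, mem_Icc]
      exact ⟨⟨Nat.mul_pos he0 hj.1, by nlinarith [Nat.div_mul_le_self L e]⟩, dvd_mul_right _ _⟩
    · intro m hm
      rw [mem_filter, mem_Icc] at hm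
      obtain ⟨⟨h1, h2⟩, ⟨r, rfl⟩⟩ := hm
      rw [Nat.mul_div_cancel_left _ he0, mem_Icc]
      exact ⟨Nat.one_le_iff_ne_zero.mpr fun h => by simp [h] at h1,
        (Nat.le_div_iff_mul_le he0).mpr (by rwa [mul_comm])⟩
    · exact fun j _ => Nat.mul_div_cancel_left _ he0
    · exact fun m hm => Nat.mul_div_cancel' (mem_filter.mp hm).2
    · intro j _
      rw [jn_mul]
  have hB := abs_sum_jn_le_of_squarefree hsq h04
  set B₀ := Real.sqrt (4 * n₀) * (1 + Real.log (4 * n₀)) with hB0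
  have hB0' : 0 ≤ B₀ := (abs_nonneg _).trans (hB 0)
  have hterm : |∑ m ∈ Icc 1 L, jn n m| ≤ (f : ℝ) * B₀ := by
    rw [hsum]
    refine (Finset.abs_sum_le_sum_abs _ _).trans ?_
    calc ∑ e ∈ f.divisors, |(ArithmeticFunction.moebius e : ℝ) *
          (jn n₀ e * ∑ j ∈ Icc 1 (L / e), jn n₀ j)|
        ≤ ∑ _e ∈ f.divisors, B₀ := by
          refine Finset.sum_le_sum fun e _ => ?_
          rw [abs_mul, abs_mul]
          have hm : |(ArithmeticFunction.moebius e : ℝ)| ≤ 1 := by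
            exact_mod_cast ArithmeticFunction.abs_moebius_le_one (n := e)
          calc _ ≤ 1 * (1 * B₀) := by
                gcongr
                exacts [abs_jn_le _ _, hB _]
            _ = B₀ := by ring
      _ ≤ (f : ℝ) * B₀ := by
          rw [Finset.sum_const, nsmul_eq_mul]
          exact mul_le_mul_of_nonneg_right (by exact_mod_cast Nat.card_divisors_le_self f) hB0'
  refine hterm.trans ?_
  have hn0R : (1 : ℝ) ≤ n₀ := by exact_mod_cast hsq.ne_zero.bot_lt
  have hle : (n₀ : ℝ) ≤ n := by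
    exact_mod_cast Nat.le_of_dvd (NeZero.pos n) (hn ▸ dvd_mul_left n₀ (f ^ 2))
  have e : (f : ℝ) * Real.sqrt (4 * n₀) = 2 * Real.sqrt n := by
    rw [hn]
    push_cast
    rw [Real.sqrt_mul (sq_nonneg (f : ℝ)), Real.sqrt_sq (Nat.cast_nonneg f),
      Real.sqrt_mul (by norm_num : (0 : ℝ) ≤ 4), show (4 : ℝ) = 2 ^ 2 by norm_num,
      Real.sqrt_sq (by norm_num : (0 : ℝ) ≤ 2)]
    ring
  rw [hB0, ← mul_assoc, e]
  gcongr

end FA.ClassNumberExtremes
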