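import Fermat.Agent.ClassNumberExtremes.Select

/-!
# From `n` to its squarefree core

If no odd prime `≤ y` divides `n ≤ 2 P^10` then `L(1, (-n / ·))` and the value at the squarefree
core of `n` agree up to the constants `e^22` and `e^44`.
-/

set_option autoImplicit false

noncomputable section

open Finset
open FA.OrderTheta (signChar)

namespace FA.ClassNumberExtremes

theorem card_prime_gt_le {y n : ℕ} (hn0 : n ≠ 0) (hy : 21 ≤ y) (hn : n ≤ 2 * scale y ^ 10) :
    (n.primeFactors.filter (y < ·)).card ≤ 22 * y := by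
  set c := (n.primeFactors.filter (y < ·)).card
  have h1 : 2 ^ c ≤ ∏ p ∈ n.primeFactors.filter (y < ·), p :=
    Finset.pow_card_le_prod _ _ _ fun p hp =>
      (Nat.prime_of_mem_primeFactors (mem_filter.mp hp).1).two_le
  have h2 : ∏ p ∈ n.primeFactors.filter (y < ·), p ∣ n :=
    (Finset.prod_dvd_prod_of_subset _ _ _ (filter_subset _ _)).trans (Nat.prod_primeFactors_dvd n)
  have h3 : 2 ^ c ≤ 2 ^ (1 + 20 * (y + 2)) := by
    refine h1.trans ((Nat.le_of_dvd (Nat.pos_of_ne_zero hn0) h2).trans (hn.trans (le_of_eq ?_)))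
    rw [scale, show (4 : ℕ) = 2 ^ 2 by norm_num, ← pow_mul, ← pow_mul, ← pow_succ']
    congr 1
    ring
  have := (Nat.pow_le_pow_iff_right (le_refl 2)).mp h3
  omega

/-- **The squarefree core.** -/
theorem exists_core_value {y n : ℕ} [NeZero n] (hy : 21 ≤ y) (h4 : n % 4 = 1)
    (hn : n ≤ 2 * scale y ^ 10) (hq : ∀ q : ℕ, q.Prime → q ≠ 2 → q ≤ y → ¬ q ∣ n) :
    ∃ n₀ : ℕ, ∃ _ : NeZero n₀, Squarefree n₀ ∧ n₀ % 4 = 1 ∧ n₀ ≤ n ∧
      Real.exp (-44) * LVal n₀ ≤ LVal n ∧ LVal n ≤ Real.exp 22 * LVal n₀ := by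
  obtain ⟨f, n₀, hfn, hsq, h04, hf⟩ := exists_core h4
  have : NeZero n₀ := ⟨hsq.ne_zero⟩
  have hdn : n₀ ∣ n := hfn ▸ dvd_mul_left n₀ (f ^ 2)
  refine ⟨n₀, this, hsq, h04, Nat.le_of_dvd (NeZero.pos n) hdn, ?_⟩
  have hdiv : 4 * n₀ ∣ 4 * n := Nat.mul_dvd_mul_left 4 hdn
  have hchi : signChar n = DirichletCharacter.changeLevel hdiv (signChar n₀) := by
    refine MulChar.ext fun u => ?_
    set m := (u : ZMod (4 * n)).val with hm
    have hu : (u : ZMod (4 * n)) = (m : ZMod (4 * n)) := (ZMod.natCast_zmod_val _).symm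
    have hcop : m.Coprime f := (ZMod.val_coe_unit_coprime u).coprime_dvd_right
      (Dvd.dvd.mul_left (hfn ▸ (dvd_pow_self f two_ne_zero).mul_right n₀) 4)
    rw [DirichletCharacter.changeLevel_eq_cast_of_dvd, hu, ZMod.cast_natCast hdiv,
      signChar_natCast, signChar_natCast]
    congr 1
    subst hfn
    rw [jn_sq_mul hf, if_pos hcop]
  set g : ℕ → ℝ := fun p => 1 - jn n₀ p / p with hg
  have hL : LVal n = LVal n₀ * ∏ p ∈ (4 * n).primeFactors, g p := by
    have h := DirichletCharacter.LFunction_changeLevel hdiv (signChar n₀) (s := 1)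
      (Or.inl FA.OrderTheta.signChar_ne_one)
    rw [← hchi, LFunction_eq_LVal, LFunction_eq_LVal] at h
    have e : ∀ p ∈ (4 * n).primeFactors,
        1 - signChar n₀ (p : ZMod (4 * n₀)) * (p : ℂ) ^ (-(1 : ℂ)) = ((g p : ℝ) : ℂ) :=
      fun p _ => by
      rw [signChar_natCast, Complex.cpow_neg_one, hg]
      push_cast
      rw [div_eq_mul_inv]
    rw [Finset.prod_congr rfl e, ← Complex.ofReal_prod, ← Complex.ofReal_mul] at h
    exact Complex.ofReal_inj.mp h
  set S := (4 * n).primeFactors.filter (y < ·) with hS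
  have hone : ∀ p ∈ (4 * n).primeFactors, p ∉ S → g p = 1 := fun p hp hpS => by
    have hle : p ≤ y := not_lt.mp fun h => hpS (mem_filter.mpr ⟨hp, h⟩)
    have hpp := Nat.prime_of_mem_primeFactors hp
    have h2 : p = 2 := by
      by_contra h2
      rcases hpp.dvd_mul.mp (Nat.dvd_of_mem_primeFactors hp) with h | h
      · exact h2 ((Nat.prime_dvd_prime_iff_eq hpp Nat.prime_two).mp
          (hpp.dvd_of_dvd_pow (n := 2) (by norm_num; exact h)))
      · exact hq p hpp h2 hle h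
    subst h2
    rw [hg]; dsimp only
    rw [jn_even _ (by decide)]; norm_num
  have hprod : ∏ p ∈ (4 * n).primeFactors, g p = ∏ p ∈ S, g p :=
    (Finset.prod_subset (filter_subset _ _) hone).symm
  have hyR : (21 : ℝ) ≤ y := by exact_mod_cast hy
  have hy1 : (y : ℝ)⁻¹ ≤ 1 / 2 := by
    rw [inv_le_comm₀ (by linarith) (by norm_num)]; linarith
  have hbd : ∀ p ∈ S, Real.exp (-2 / y) ≤ g p ∧ g p ≤ Real.exp (1 / y) := fun p hp => by
    have hpy : (y : ℝ) ≤ p := by exact_mod_cast (mem_filter.mp hp).2.le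
    have hdiv : |jn n₀ p / p| ≤ (y : ℝ)⁻¹ := by
      rw [abs_div, Nat.abs_cast, inv_eq_one_div]
      exact div_le_div₀ zero_le_one (abs_jn_le _ _) (by linarith) hpy
    obtain ⟨h1, h2⟩ := abs_le.mp hdiv
    constructor
    · refine le_trans ?_ (show 1 - (y : ℝ)⁻¹ ≤ g p by rw [hg]; dsimp only; linarith)
      have h3 : 0 < 1 - (y : ℝ)⁻¹ := by linarith
      rw [show -2 / (y : ℝ) = -(2 * (y : ℝ)⁻¹) by ring, Real.exp_neg,
        inv_le_comm₀ (Real.exp_pos _) h3]
      refine le_trans ?_ (Real.add_one_le_exp _)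
      rw [inv_eq_one_div, div_le_iff₀ h3]
      nlinarith [inv_nonneg.mpr (Nat.cast_nonneg y : (0 : ℝ) ≤ y)]
    · refine le_trans (show g p ≤ 1 / (y : ℝ) + 1 by rw [hg, one_div]; dsimp only; linarith)
        (Real.add_one_le_exp _)
  have hcard : (S.card : ℝ) ≤ 22 * y := by
    have hsub : S ⊆ n.primeFactors.filter (y < ·) := fun p hp => by
      obtain ⟨hp, hpy⟩ := mem_filter.mp hp
      have hpp := Nat.prime_of_mem_primeFactors hp
      refine mem_filter.mpr ⟨Nat.mem_primeFactors.mpr ⟨hpp, ?_, NeZero.ne n⟩, hpy⟩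
      refine (hpp.dvd_mul.mp (Nat.dvd_of_mem_primeFactors hp)).resolve_left fun h => ?_
      have := Nat.le_of_dvd (by norm_num) h
      omega
    exact_mod_cast (Finset.card_le_card hsub).trans (card_prime_gt_le (NeZero.ne n) hy hn)
  have hlo : Real.exp (-44) ≤ ∏ p ∈ S, g p := by
    refine le_trans ?_
      (Finset.prod_le_prod (fun p _ => (Real.exp_pos _).le) fun p hp => (hbd p hp).1)
    rw [Finset.prod_const, ← Real.exp_nat_mul, Real.exp_le_exp, mul_div, le_div_iff₀ (by linarith)]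
    linarith
  have hhi : ∏ p ∈ S, g p ≤ Real.exp 22 := by
    refine (Finset.prod_le_prod (fun p hp => (Real.exp_pos _).le.trans (hbd p hp).1)
      fun p hp => (hbd p hp).2).trans ?_
    rw [Finset.prod_const, ← Real.exp_nat_mul, Real.exp_le_exp, mul_one_div,
      div_le_iff₀ (by linarith)]
    linarith
  have hpos : 0 < LVal n₀ := LVal_pos
  rw [hL, hprod]
  constructor
  · rw [mul_comm]; exact mul_le_mul_of_nonneg_left hlo hpos.le
  · rw [mul_comm (Real.exp 22)]; exact mul_le_mul_of_nonneg_left hhi hpos.le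

end FA.ClassNumberExtremes
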