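import Fermat.Agent.ClassNumberExtremes.Descend

/-!
# Extremes of `L(1, χ)` for imaginary quadratic characters

`L(1, (-n / ·)) ≫ log log n` for infinitely many squarefree `n ≡ 1 (mod 4)` and
`≪ 1 / log log n` for infinitely many others.
-/

set_option autoImplicit false

noncomputable section

open Finset Filter

namespace FA.ClassNumberExtremes

theorem loglog_le {y n₀ : ℕ} (hy : 25 ≤ y) (h1 : 1 < n₀) (hn : n₀ ≤ 2 * scale y ^ 10) :
    Real.log (Real.log n₀) ≤ 2 * Real.log y := by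
  have hR : (1 : ℝ) < n₀ := by exact_mod_cast h1
  have hle : (n₀ : ℝ) ≤ 2 * (scale y : ℝ) ^ 10 := by exact_mod_cast hn
  have h2 : Real.log n₀ ≤ Real.log 2 + 10 * ((y + 2) * Real.log 4) := by
    refine (Real.log_le_log (by linarith) hle).trans (le_of_eq ?_)
    rw [Real.log_mul two_ne_zero (by unfold scale; positivity), Real.log_pow, scale]
    push_cast
    rw [Real.log_pow]
    push_cast
    ring
  have hl2 := Real.log_le_sub_one_of_pos (show (0 : ℝ) < 2 by norm_num)
  have hl4 : Real.log 4 ≤ 2 := by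
    rw [show (4 : ℝ) = 2 ^ 2 by norm_num, Real.log_pow]; push_cast; linarith
  have hy25 : (25 : ℝ) ≤ y := by exact_mod_cast hy
  have h3 : Real.log n₀ ≤ (y : ℝ) ^ 2 := by
    have : 10 * (((y : ℝ) + 2) * Real.log 4) ≤ 10 * (((y : ℝ) + 2) * 2) := by gcongr
    nlinarith
  calc Real.log (Real.log n₀) ≤ Real.log ((y : ℝ) ^ 2) := Real.log_le_log (Real.log_pos hR) h3
    _ = 2 * Real.log y := by rw [Real.log_pow]; norm_num

/-- Arbitrarily large squarefree `n` with `L(1, χ) ≫ log log n`. -/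
theorem exists_large_squarefree : ∃ c : ℝ, 0 < c ∧ ∀ N : ℕ, ∃ n : ℕ, N < n ∧ ∃ _ : NeZero n,
    Squarefree n ∧ n % 4 = 1 ∧ c * Real.log (Real.log n) ≤ LVal n := by
  set A := Real.exp 22 with hA
  have hA0 : 0 < A := Real.exp_pos _
  refine ⟨1 / (8 * A), by positivity, fun N => ?_⟩
  have hlog := (Real.tendsto_log_atTop.comp tendsto_natCast_atTop_atTop).eventually_ge_atTop
    (max 600 (4 * A * (3 + Real.log (4 * ((N : ℝ) + 1)))))
  obtain ⟨y, hlogy, hy⟩ := (hlog.and (eventually_ge_atTop (25 : ℕ))).exists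
  simp only [Function.comp_def, max_le_iff] at hlogy
  obtain ⟨n, hn0, h4, hle, hq, hL⟩ := exists_large (y := y) (by omega)
  obtain ⟨n₀, hn₀, hsq, h04, hn₀le, -, hup⟩ := exists_core_value (by omega) h4 hle hq
  have hP : 145 / (scale y : ℝ) ≤ 145 := div_le_self (by norm_num)
    (by exact_mod_cast Nat.one_le_pow _ _ (by norm_num : 0 < 4))
  have hl2 := Real.log_le_sub_one_of_pos (show (0 : ℝ) < 2 by norm_num)
  have hbig : Real.log y / 4 ≤ A * LVal n₀ := by linarith
  have hN : N < n₀ := by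
    by_contra hc
    push Not at hc
    have h1 := LVal_le_log (n := n₀)
    have h2 : Real.log (4 * n₀) ≤ Real.log (4 * ((N : ℝ) + 1)) := by
      have : (n₀ : ℝ) ≤ N := by exact_mod_cast hc
      have : (0 : ℝ) < n₀ := by exact_mod_cast hsq.ne_zero.bot_lt
      exact Real.log_le_log (by positivity) (by linarith)
    have h3 : A * LVal n₀ ≤ A * (1 + Real.log (4 * ((N : ℝ) + 1))) :=
      mul_le_mul_of_nonneg_left (by linarith) hA0.le
    nlinarith
  refine ⟨n₀, hN, hn₀, hsq, h04, ?_⟩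
  rcases Nat.lt_or_ge 1 n₀ with h1 | h1
  · have := loglog_le hy h1 (hn₀le.trans hle)
    rw [div_mul_eq_mul_div, one_mul, div_le_iff₀ (by positivity)]
    linarith
  · have : n₀ = 1 := by omega
    subst this
    simpa using LVal_pos.le

/-- `(log y)² ≤ 4 y`. -/
theorem log_sq_le (y : ℕ) : Real.log y ^ 2 ≤ 4 * y := by
  have h0 : (0 : ℝ) ≤ y := Nat.cast_nonneg y
  have h1 : Real.log y ≤ 2 * Real.sqrt y := by
    have := Real.log_le_rpow_div h0 (ε := 1 / 2) (by norm_num)
    rw [← Real.sqrt_eq_rpow] at this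
    linarith
  have h2 : 0 ≤ Real.log y := Real.log_natCast_nonneg y
  nlinarith [Real.mul_self_sqrt h0, Real.sqrt_nonneg (y : ℝ)]

/-- Arbitrarily large squarefree `n` with `L(1, χ) ≪ 1 / log log n`. -/
theorem exists_small_squarefree : ∃ C : ℝ, 0 < C ∧ ∀ N : ℕ, ∃ n : ℕ, N < n ∧ ∃ _ : NeZero n,
    Squarefree n ∧ n % 4 = 1 ∧ LVal n ≤ C / Real.log (Real.log n) := by
  obtain ⟨c, C, hc, hC, hev⟩ := eventually_mertProd
  set B := Real.exp 44 * (4 * C + 4 / c + 146) with hB
  have hB0 : 0 < B := by positivity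
  refine ⟨2 * B, by positivity, fun N => ?_⟩
  classical
  obtain ⟨δ, hδ, hmin⟩ : ∃ δ : ℝ, 0 < δ ∧ ∀ m ≤ max N 3, ∀ _ : NeZero m, δ ≤ LVal m := by
    let g : ℕ → ℝ := fun m => if h : m = 0 then 1 else haveI : NeZero m := ⟨h⟩; LVal m
    obtain ⟨m₀, -, hm₀⟩ := Finset.exists_min_image (range (max N 3 + 1)) g ⟨0, by simp⟩
    refine ⟨g m₀, ?_, fun m hm hne => ?_⟩
    · simp only [g]; split_ifs with h
      · exact one_pos
      · haveI : NeZero m₀ := ⟨h⟩
        exact LVal_pos
    · refine (hm₀ m (mem_range.mpr (by omega))).trans (le_of_eq ?_)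
      simp [g, hne.out]
  have hlog := (Real.tendsto_log_atTop.comp tendsto_natCast_atTop_atTop).eventually_gt_atTop
    (B / δ)
  obtain ⟨y, ⟨hlogy, hm1, hm2⟩, hy⟩ := ((hlog.and hev).and (eventually_ge_atTop (25 : ℕ))).exists
  simp only [Function.comp_def] at hlogy
  obtain ⟨n, hn0, h4, hle, hq, hL⟩ := exists_small (y := y) (by omega)
  obtain ⟨n₀, hn₀, hsq, h04, hn₀le, hlow, -⟩ := exists_core_value (by omega) h4 hle hq
  have hy0 : (0 : ℝ) < y := by exact_mod_cast (by omega : 0 < y)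
  have hl : 0 < Real.log y := Real.log_pos (by exact_mod_cast (by omega : 1 < y))
  have hsmall : LVal n ≤ (4 * C + 4 / c + 146) / Real.log y := by
    refine hL.trans ?_
    rw [add_div, add_div, mul_div_assoc]
    refine add_le_add (add_le_add (mul_le_mul_of_nonneg_left hm2 (by norm_num)) ?_) ?_
    · calc (mertProd y)⁻¹ / y ≤ (c / Real.log y)⁻¹ / y := by gcongr
        _ = Real.log y ^ 2 / y / c / Real.log y := by field_simp
        _ ≤ 4 / c / Real.log y := by
            gcongr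
            rw [div_le_iff₀ hy0]; exact log_sq_le y
    · refine div_le_div_of_nonneg_left (by norm_num) hl ?_
      exact (Real.log_le_sub_one_of_pos hy0).trans
        ((sub_le_self _ zero_le_one).trans (Nat.cast_le.mpr (le_scale y)))
  have hval : LVal n₀ ≤ B / Real.log y := by
    have h := hlow.trans hsmall
    rw [Real.exp_neg, inv_mul_le_iff₀ (Real.exp_pos _)] at h
    rw [hB, mul_div_assoc]
    exact h
  have hN : max N 3 < n₀ := by
    by_contra hc'
    push Not at hc'
    have h1 := (hmin n₀ hc' hn₀).trans hval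
    rw [le_div_iff₀ hl] at h1
    rw [div_lt_iff₀ hδ] at hlogy
    linarith [mul_comm δ (Real.log y)]
  refine ⟨n₀, (le_max_left _ _).trans_lt hN, hn₀, hsq, h04, hval.trans ?_⟩
  have h1 := loglog_le hy (by omega : 1 < n₀) (hn₀le.trans hle)
  have hlln : 0 < Real.log (Real.log n₀) := by
    refine Real.log_pos ((Real.lt_log_iff_exp_lt (by exact_mod_cast (by omega : 0 < n₀))).mpr ?_)
    exact Real.exp_one_lt_three.trans (by exact_mod_cast (by omega : 3 < n₀))
  rw [div_le_div_iff₀ hl hlln]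
  nlinarith

end FA.ClassNumberExtremes
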