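import Fermat.Agent.ClassNumberExtremes.Average
import Fermat.Agent.Root.SummaryMertensThird
import Mathlib.NumberTheory.EulerProduct.Basic
import Mathlib.NumberTheory.Harmonic.Bounds

/-!
# Sums over the numbers with all prime factors at most `y`
-/

set_option autoImplicit false

noncomputable section

open Finset Filter
open scoped Topology

namespace FA.ClassNumberExtremes

/-- `∏_{p ≤ y} (1 - 1/p)`. -/
def mertProd (y : ℕ) : ℝ := ∏ p ∈ (range (y + 1)).filter Nat.Prime, (1 - (p : ℝ)⁻¹)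

theorem mertProd_pos (y : ℕ) : 0 < mertProd y :=
  Finset.prod_pos fun p hp => sub_pos.mpr
    (inv_lt_one_of_one_lt₀ (by exact_mod_cast (mem_filter.mp hp).2.one_lt))

theorem smoothUp_iff (y m : ℕ) : SmoothUp y m ↔ m ∈ Nat.factoredNumbers (range (y + 1)) := by
  simp [Nat.mem_factoredNumbers', SmoothUp, Nat.lt_succ_iff]

open scoped Classical in
theorem hasSum_smooth (y : ℕ) {f : ℕ →* ℝ} (h : ∀ {p : ℕ}, p.Prime → ‖f p‖ < 1) :
    HasSum (fun m => if SmoothUp y m then f m else 0)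
      (∏ p ∈ (range (y + 1)).filter Nat.Prime, (1 - f p)⁻¹) := by
  have h1 := hasSum_subtype_iff_indicator.mp
    (EulerProduct.summable_and_hasSum_factoredNumbers_prod_filter_prime_geometric h
      (range (y + 1))).2
  refine h1.congr_fun fun m => ?_
  simp [Set.indicator_apply, smoothUp_iff]

/-- `m ↦ 1 / m`. -/
def invFun : ℕ →* ℝ where
  toFun m := (m : ℝ)⁻¹
  map_one' := by simp
  map_mul' a b := by push_cast; rw [mul_inv]

/-- `m ↦ 1 / √m`. -/
def invSqrtFun : ℕ →* ℝ where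
  toFun m := (Real.sqrt m)⁻¹
  map_one' := by simp
  map_mul' a b := by rw [Nat.cast_mul, Real.sqrt_mul (Nat.cast_nonneg a), mul_inv]

/-- `m ↦ (-a / m) / m`. -/
def jnFun (a : ℕ) : ℕ →* ℝ where
  toFun m := jn a m / m
  map_one' := by simp [jn_one]
  map_mul' b c := by rw [jn_mul, Nat.cast_mul, mul_div_mul_comm]

theorem invFun_lt_one {p : ℕ} (hp : p.Prime) : ‖invFun p‖ < 1 := by
  show ‖(p : ℝ)⁻¹‖ < 1
  rw [Real.norm_eq_abs, abs_inv, Nat.abs_cast]
  exact inv_lt_one_of_one_lt₀ (by exact_mod_cast hp.one_lt)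

theorem invSqrtFun_lt_one {p : ℕ} (hp : p.Prime) : ‖invSqrtFun p‖ < 1 := by
  show ‖(Real.sqrt p)⁻¹‖ < 1
  rw [Real.norm_eq_abs, abs_inv, abs_of_nonneg (Real.sqrt_nonneg _)]
  exact inv_lt_one_of_one_lt₀ (Real.lt_sqrt_of_sq_lt (by rw [one_pow]; exact_mod_cast hp.one_lt))

theorem jnFun_lt_one (a : ℕ) {p : ℕ} (hp : p.Prime) : ‖jnFun a p‖ < 1 := by
  show ‖jn a p / p‖ < 1
  rw [Real.norm_eq_abs, abs_div, Nat.abs_cast, div_lt_one (by exact_mod_cast hp.pos)]
  exact (abs_jn_le a p).trans_lt (by exact_mod_cast hp.one_lt)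

open scoped Classical in
theorem sum_inv_smooth_le (y Z : ℕ) :
    ∑ m ∈ Icc 1 Z, (if SmoothUp y m then (m : ℝ)⁻¹ else 0) ≤ (mertProd y)⁻¹ := by
  have h := hasSum_smooth y (f := invFun) (fun hp => invFun_lt_one hp)
  have hp : ∏ p ∈ (range (y + 1)).filter Nat.Prime, (1 - invFun p)⁻¹ = (mertProd y)⁻¹ := by
    rw [mertProd, ← Finset.prod_inv_distrib]; rfl
  rw [hp] at h
  exact sum_le_hasSum _ (fun m _ => by
    show 0 ≤ if SmoothUp y m then (m : ℝ)⁻¹ else 0
    split_ifs <;> positivity) h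

theorem prod_one_sub_sq_ge (y : ℕ) :
    (1 / 2 : ℝ) ≤ ∏ p ∈ (range (y + 1)).filter Nat.Prime, (1 - ((p : ℝ) ^ 2)⁻¹) := by
  rcases Nat.lt_or_ge y 2 with hy | hy
  · rw [Finset.filter_eq_empty_iff.mpr fun p hp h => by
      have := h.two_le; rw [mem_range] at hp; omega, Finset.prod_empty]
    norm_num
  have hprod : ∏ k ∈ Icc 2 y, (1 - ((k : ℝ) ^ 2)⁻¹) = ((y : ℝ) + 1) / (2 * y) := by
    induction y, hy using Nat.le_induction with
    | base => norm_num
    | succ k hk ih =>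
      rw [prod_Icc_succ_top (by omega : 2 ≤ k + 1), ih]
      have : (2 : ℝ) ≤ k := by exact_mod_cast hk
      push_cast
      field_simp
      ring
  have hk01 : ∀ k : ℕ, 2 ≤ k → 0 ≤ 1 - ((k : ℝ) ^ 2)⁻¹ ∧ 1 - ((k : ℝ) ^ 2)⁻¹ ≤ 1 := fun k hk => by
    have h2 : (1 : ℝ) ≤ (k : ℝ) ^ 2 := one_le_pow₀ (by exact_mod_cast (by omega : 1 ≤ k))
    exact ⟨sub_nonneg.mpr (inv_le_one_of_one_le₀ h2), sub_le_self _ (by positivity)⟩
  refine le_trans ?_ (Finset.prod_le_prod_of_subset_of_le_one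
    (s := (range (y + 1)).filter Nat.Prime) (t := Icc 2 y) ?_ ?_ ?_)
  · rw [hprod]
    have : (2 : ℝ) ≤ y := by exact_mod_cast hy
    rw [le_div_iff₀ (by linarith)]
    linarith
  · intro p hp
    rw [mem_filter, mem_range] at hp
    rw [mem_Icc]
    exact ⟨hp.2.two_le, by omega⟩
  · exact fun k hk => (hk01 k (mem_Icc.mp hk).1).1
  · exact fun k hk _ => (hk01 k (mem_Icc.mp hk).1).2

/-- The Euler product when all small primes are inert. -/
theorem prod_inert_le {y a : ℕ} (ha : ∀ q : ℕ, q.Prime → q ≠ 2 → q ≤ y → jn a q = -1) :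
    ∏ p ∈ (range (y + 1)).filter Nat.Prime, (1 - jnFun a p)⁻¹ ≤ 4 * mertProd y := by
  set s := (range (y + 1)).filter Nat.Prime with hs
  have hpr : ∀ p ∈ s, p.Prime ∧ p ≤ y := fun p hp => by
    rw [hs, mem_filter, mem_range] at hp; exact ⟨hp.2, by omega⟩
  have hpos : ∀ p ∈ s, 0 < 1 - ((p : ℝ) ^ 2)⁻¹ := fun p hp => sub_pos.mpr
    (inv_lt_one_of_one_lt₀ (one_lt_pow₀ (by exact_mod_cast (hpr p hp).1.one_lt) two_ne_zero))
  calc ∏ p ∈ s, (1 - jnFun a p)⁻¹
      ≤ ∏ p ∈ s, ((if p = 2 then (2 : ℝ) else 1) *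
          ((1 - (p : ℝ)⁻¹) * (1 - ((p : ℝ) ^ 2)⁻¹)⁻¹)) := by
        refine Finset.prod_le_prod (fun p hp => ?_) (fun p hp => ?_)
        · exact inv_nonneg.mpr (by
            linarith [(abs_lt.mp (jnFun_lt_one a (hpr p hp).1)).2])
        · obtain ⟨hp', hle⟩ := hpr p hp
          show (1 - jn a p / p)⁻¹ ≤ _
          by_cases h2 : p = 2
          · subst h2
            rw [jn_even _ (by decide), if_pos rfl]
            norm_num
          · rw [ha p hp' h2 hle, if_neg h2, one_mul]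
            have h1 : (1 : ℝ) < p := by exact_mod_cast hp'.one_lt
            have hp1 : (0 : ℝ) < p := by linarith
            have hp2 : (p : ℝ) ^ 2 - 1 ≠ 0 := by nlinarith
            refine le_of_eq ?_
            field_simp
            ring
    _ = (∏ p ∈ s, if p = 2 then (2 : ℝ) else 1) *
          (mertProd y * (∏ p ∈ s, (1 - ((p : ℝ) ^ 2)⁻¹))⁻¹) := by
        rw [Finset.prod_mul_distrib, Finset.prod_mul_distrib, Finset.prod_inv_distrib]; rfl
    _ ≤ 2 * (mertProd y * 2) := by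
        have := mertProd_pos y
        refine mul_le_mul ?_ (mul_le_mul_of_nonneg_left (inv_le_of_inv_le₀ two_pos (by
          simpa [one_div] using prod_one_sub_sq_ge y)) this.le) (mul_nonneg this.le
            (inv_nonneg.mpr (Finset.prod_nonneg fun p hp => (hpos p hp).le))) zero_le_two
        rw [Finset.prod_ite_eq']
        split_ifs <;> norm_num
    _ = 4 * mertProd y := by ring

open scoped Classical in
/-- The truncated sum when all small primes are inert. -/
theorem sum_jn_smooth_le {y a Z : ℕ} (hZ : 1 ≤ Z)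
    (ha : ∀ q : ℕ, q.Prime → q ≠ 2 → q ≤ y → jn a q = -1) :
    ∑ m ∈ Icc 1 Z, (if SmoothUp y m then jn a m / m else 0) ≤
      4 * mertProd y + 4 ^ (y + 1) / Real.sqrt Z := by
  have hF := hasSum_smooth y (f := jnFun a) (fun hp => jnFun_lt_one a hp)
  have hG := hasSum_smooth y (f := invSqrtFun) (fun hp => invSqrtFun_lt_one hp)
  set F : ℕ → ℝ := fun m => if SmoothUp y m then jn a m / m else 0 with hFdef
  set G : ℕ → ℝ := fun m => if SmoothUp y m then (Real.sqrt m)⁻¹ else 0 with hGdef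
  change HasSum F _ at hF
  change HasSum G _ at hG
  have hsZ : 0 < Real.sqrt Z := Real.sqrt_pos.mpr (by exact_mod_cast hZ)
  have hsub : HasSum (fun m => if m ∈ Icc 1 Z then F m else 0) (∑ m ∈ Icc 1 Z, F m) := by
    convert hasSum_sum_of_ne_finset_zero (L := SummationFilter.unconditional ℕ)
      (f := fun m => if m ∈ Icc 1 Z then F m else 0) (s := Icc 1 Z) (fun m hm => if_neg hm) using 1
    exact Finset.sum_congr rfl fun m hm => (if_pos hm).symm
  have hrest := hF.sub hsub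
  have hb : ∀ m, ‖F m - (if m ∈ Icc 1 Z then F m else 0)‖ ≤ (Real.sqrt Z)⁻¹ * G m := by
    intro m
    have hG0 : 0 ≤ G m := by simp only [hGdef]; split_ifs <;> positivity
    split_ifs with hm
    · simpa using mul_nonneg (inv_nonneg.mpr hsZ.le) hG0
    · simp only [sub_zero, hFdef, hGdef]
      by_cases hs : SmoothUp y m
      · rw [if_pos hs, if_pos hs]
        have hm0 : m ≠ 0 := fun h => by
          subst h
          obtain ⟨p, hp, hpp⟩ := Nat.exists_infinite_primes (y + 1)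
          have := hs p hpp (dvd_zero p)
          omega
        have hmZ : (Z : ℝ) ≤ m := by
          rw [mem_Icc] at hm; exact_mod_cast (by omega : Z ≤ m)
        have hm1 : (0 : ℝ) < m := by exact_mod_cast Nat.pos_of_ne_zero hm0
        rw [Real.norm_eq_abs, abs_div, Nat.abs_cast]
        refine (div_le_div_of_nonneg_right (abs_jn_le a m) hm1.le).trans ?_
        rw [one_div]
        conv_lhs => rw [← Real.mul_self_sqrt hm1.le, mul_inv]
        gcongr
      · simp [hs]
  have hbound := hrest.norm_le_of_bounded (hG.mul_left (Real.sqrt Z)⁻¹) hb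
  have hprod : ∏ p ∈ (range (y + 1)).filter Nat.Prime, (1 - invSqrtFun p)⁻¹ ≤
      (4 : ℝ) ^ (y + 1) := by
    calc _ ≤ ∏ _p ∈ (range (y + 1)).filter Nat.Prime, (4 : ℝ) := by
          refine Finset.prod_le_prod (fun p hp => inv_nonneg.mpr ?_) (fun p hp => ?_)
          · linarith [(abs_lt.mp (invSqrtFun_lt_one (mem_filter.mp hp).2)).2]
          · show (1 - (Real.sqrt p)⁻¹)⁻¹ ≤ 4
            have h2 : (4 / 3 : ℝ) ≤ Real.sqrt p := Real.le_sqrt_of_sq_le (by
              have : (2 : ℝ) ≤ p := by exact_mod_cast (mem_filter.mp hp).2.two_le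
              norm_num; linarith)
            have h3 : (Real.sqrt p)⁻¹ ≤ (4 / 3 : ℝ)⁻¹ := inv_anti₀ (by norm_num) h2
            exact inv_le_of_inv_le₀ (by norm_num) (by norm_num at h3 ⊢; linarith)
      _ ≤ (4 : ℝ) ^ (y + 1) := by
          rw [Finset.prod_const]
          exact pow_le_pow_right₀ (by norm_num)
            ((Finset.card_filter_le _ _).trans (Finset.card_range _).le)
  have h1 := (abs_le.mp (Real.norm_eq_abs _ ▸ hbound)).1
  have h2 : (Real.sqrt Z)⁻¹ * ∏ p ∈ (range (y + 1)).filter Nat.Prime, (1 - invSqrtFun p)⁻¹ ≤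
      4 ^ (y + 1) / Real.sqrt Z := by
    rw [div_eq_inv_mul]; gcongr
  linarith [prod_inert_le ha]

open scoped Classical in
/-- Numbers `u j²` with `j > y` and `u` free of primes above `y` are rare. -/
theorem sum_inv_square_part_le {y : ℕ} (hy : 1 ≤ y) (Z : ℕ) :
    ∑ m ∈ Icc 1 Z,
      (if ∃ u j : ℕ, m = u * j ^ 2 ∧ SmoothUp y u ∧ y < j then (m : ℝ)⁻¹ else 0) ≤
      (mertProd y)⁻¹ / y := by
  rw [← Finset.sum_filter]
  set S := ((Icc 1 Z).filter (SmoothUp y)) ×ˢ Ioc y Z with hS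
  calc _ ≤ ∑ m ∈ S.image (fun x : ℕ × ℕ => (x.1 * x.2 ^ 2 : ℕ)), ((m : ℕ) : ℝ)⁻¹ := by
        refine Finset.sum_le_sum_of_subset_of_nonneg (fun m hm => ?_) fun m _ _ => by positivity
        obtain ⟨hm, u, j, rfl, hu, hj⟩ := mem_filter.mp hm
        rw [mem_Icc] at hm
        have hu1 : 1 ≤ u := Nat.one_le_iff_ne_zero.mpr fun h => by simp [h] at hm
        have hj1 : j ≤ j ^ 2 := Nat.le_self_pow two_ne_zero j
        refine mem_image.mpr ⟨(u, j), mem_product.mpr ⟨mem_filter.mpr ⟨mem_Icc.mpr ⟨hu1, ?_⟩, hu⟩,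
          mem_Ioc.mpr ⟨hj, ?_⟩⟩, rfl⟩
        · exact (Nat.le_mul_of_pos_right u (pow_pos (by omega) 2)).trans hm.2
        · exact hj1.trans ((Nat.le_mul_of_pos_left _ hu1).trans hm.2)
    _ ≤ ∑ x ∈ S, ((x.1 * x.2 ^ 2 : ℕ) : ℝ)⁻¹ :=
        Finset.sum_image_le_of_nonneg fun m _ => inv_nonneg.mpr (Nat.cast_nonneg m)
    _ = (∑ u ∈ (Icc 1 Z).filter (SmoothUp y), (u : ℝ)⁻¹) * ∑ j ∈ Ioc y Z, ((j : ℝ) ^ 2)⁻¹ := by
        rw [hS, Finset.sum_product, Finset.sum_mul_sum]
        refine Finset.sum_congr rfl fun u _ => Finset.sum_congr rfl fun j _ => ?_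
        push_cast
        rw [mul_inv]
    _ ≤ (mertProd y)⁻¹ * (y : ℝ)⁻¹ := by
        refine mul_le_mul ?_ ?_ (by positivity) (inv_nonneg.mpr (mertProd_pos y).le)
        · rw [Finset.sum_filter]; exact sum_inv_smooth_le y Z
        · rcases le_or_gt y Z with h | h
          · exact (sum_Ioc_inv_sq_le_sub (by omega) h).trans (sub_le_self _ (by positivity))
          · rw [Finset.Ioc_eq_empty_of_le h.le, Finset.sum_empty]; positivity
    _ = (mertProd y)⁻¹ / y := (div_eq_mul_inv _ _).symm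

theorem sum_odd_inv_ge {y Z : ℕ} (hy : 2 ≤ y) (hZ : y ≤ Z) :
    1 / 2 * (Real.log y - Real.log 2) ≤
      ∑ m ∈ Icc 1 Z, (if Odd m ∧ m ≤ y then (m : ℝ)⁻¹ else 0) := by
  rw [← Finset.sum_filter]
  set h := (y + 1) / 2 with hh
  have hy0 : (0 : ℝ) < y := by exact_mod_cast (by omega : 0 < y)
  calc 1 / 2 * (Real.log y - Real.log 2)
      ≤ 1 / 2 * ∑ i ∈ range h, ((i : ℝ) + 1)⁻¹ := by
        gcongr
        have h1 := log_add_one_le_harmonic h
        simp only [harmonic, Rat.cast_sum, Rat.cast_inv, Rat.cast_natCast] at h1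
        push_cast at h1
        refine le_trans ?_ h1
        rw [← Real.log_div hy0.ne' two_ne_zero]
        refine Real.log_le_log (by positivity) ?_
        have h2 : (y : ℝ) ≤ 2 * ((h : ℝ) + 1) := by exact_mod_cast (by omega : y ≤ 2 * (h + 1))
        linarith
    _ = ∑ i ∈ range h, (2 * ((i : ℝ) + 1))⁻¹ := by
        rw [Finset.mul_sum]; exact Finset.sum_congr rfl fun i _ => by rw [mul_inv]; ring
    _ ≤ ∑ i ∈ range h, ((2 * i + 1 : ℕ) : ℝ)⁻¹ := Finset.sum_le_sum fun i _ => by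
        push_cast
        gcongr
        linarith
    _ = ∑ m ∈ (range h).image (fun i : ℕ => (2 * i + 1 : ℕ)), ((m : ℕ) : ℝ)⁻¹ :=
        (Finset.sum_image (f := fun m : ℕ => (m : ℝ)⁻¹) (g := fun i : ℕ => 2 * i + 1)
          fun i _ j _ e => by simpa using e).symm
    _ ≤ _ := Finset.sum_le_sum_of_subset_of_nonneg (fun m hm => by
        obtain ⟨i, hi, rfl⟩ := mem_image.mp hm
        rw [mem_range] at hi
        rw [mem_filter, mem_Icc]
        exact ⟨⟨by omega, by omega⟩, odd_two_mul_add_one i, by omega⟩) fun m _ _ => by positivity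

/-- Chebyshev-size bounds from Mertens' third theorem. -/
theorem eventually_mertProd : ∃ c C : ℝ, 0 < c ∧ 0 < C ∧ ∀ᶠ y : ℕ in atTop,
    c / Real.log y ≤ mertProd y ∧ mertProd y ≤ C / Real.log y := by
  have hγ : 0 < Real.exp (-Real.eulerMascheroniConstant) := Real.exp_pos _
  set e := Real.exp (-Real.eulerMascheroniConstant) with he
  refine ⟨e / 2, 2 * e, by positivity, by positivity, ?_⟩
  have h := (FA.MertensThird.Summary.mertens_third.comp tendsto_natCast_atTop_atTop).eventually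
    (Icc_mem_nhds (by linarith : e / 2 < e) (by linarith : e < 2 * e))
  filter_upwards [h, eventually_ge_atTop 2] with y hy hy2
  have hlog : 0 < Real.log y := Real.log_pos (by exact_mod_cast (by omega : 1 < y))
  have hset : (Icc 1 ⌊(y : ℝ)⌋₊).filter Nat.Prime = (range (y + 1)).filter Nat.Prime := by
    ext p
    simp only [Nat.floor_natCast, mem_filter, mem_Icc, mem_range]
    exact ⟨fun h => ⟨by omega, h.2⟩, fun h => ⟨⟨h.2.one_lt.le, by omega⟩, h.2⟩⟩
  simp only [Function.comp_def, hset, Set.mem_Icc] at hy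
  constructor
  · rw [div_le_iff₀ hlog, mul_comm]; exact hy.1
  · rw [le_div_iff₀ hlog, mul_comm]; exact hy.2

end FA.ClassNumberExtremes
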