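import Fermat.Agent.ClassNumberExtremes.Tail
import Fermat.Agent.ClassNumberExtremes.Smooth
import Mathlib.NumberTheory.Primorial

/-!
# A modulus with a large and one with a small value of `L(1, (-n / ·))`

With `M` four times the product of the odd primes `≤ y`, `P = 4^(y+2)`, `K = P^9` and `Z = P^8`
some `n = a + M k`, `k ≤ K`, has `L(1, (-n / ·)) ≫ log y` when the symbols `(-a / q)`, `q ≤ y`,
are `1`, and `≪ 1 / log y` when they are `-1`.
-/

set_option autoImplicit false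

noncomputable section

open Finset Filter

namespace FA.ClassNumberExtremes

/-- The odd primes up to `y`. -/
def oddPrimesUp (y : ℕ) : Finset ℕ := (range (y + 1)).filter fun q => q.Prime ∧ q ≠ 2

theorem mem_oddPrimesUp {y q : ℕ} : q ∈ oddPrimesUp y ↔ q.Prime ∧ q ≠ 2 ∧ q ≤ y := by
  simp only [oddPrimesUp, mem_filter, mem_range]
  exact ⟨fun ⟨h, h1, h2⟩ => ⟨h1, h2, by omega⟩, fun ⟨h1, h2, h⟩ => ⟨by omega, h1, h2⟩⟩

/-- Four times the product of the odd primes up to `y`. -/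
def bigMod (y : ℕ) : ℕ := 4 * ∏ q ∈ oddPrimesUp y, q

/-- The scale `4 ^ (y + 2)`. -/
def scale (y : ℕ) : ℕ := 4 ^ (y + 2)

theorem bigMod_pos (y : ℕ) : 0 < bigMod y :=
  Nat.mul_pos (by norm_num) (Finset.prod_pos fun _ hq => (mem_oddPrimesUp.mp hq).1.pos)

theorem bigMod_le (y : ℕ) : bigMod y ≤ scale y := by
  have h1 : ∏ q ∈ oddPrimesUp y, q ≤ primorial y :=
    Nat.le_of_dvd (primorial_pos y) (Finset.prod_dvd_prod_of_subset _ _ _ fun q hq => by
      rw [oddPrimesUp, mem_filter] at hq; exact mem_filter.mpr ⟨hq.1, hq.2.1⟩)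
  have h2 := primorial_le_4_pow y
  calc bigMod y ≤ 4 * 4 ^ y := Nat.mul_le_mul_left _ (h1.trans h2)
    _ = 4 ^ (y + 1) := by ring
    _ ≤ scale y := Nat.pow_le_pow_right (by norm_num) (by omega)

theorem dvd_bigMod {y q : ℕ} (hp : q.Prime) (h2 : q ≠ 2) (hq : q ≤ y) : q ∣ bigMod y :=
  Dvd.dvd.mul_left (Finset.dvd_prod_of_mem _ (mem_oddPrimesUp.mpr ⟨hp, h2, hq⟩)) 4

theorem le_of_dvd_bigMod {y q : ℕ} (hp : q.Prime) (h : q ∣ bigMod y) : q ≤ max 2 y := by
  rcases hp.dvd_mul.mp h with h | h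
  · have := (Nat.prime_dvd_prime_iff_eq hp Nat.prime_two).mp
      (hp.dvd_of_dvd_pow (n := 2) (by norm_num; exact h))
    omega
  · obtain ⟨r, hr, hd⟩ := (Prime.dvd_finset_prod_iff hp.prime _).mp h
    obtain ⟨hrp, -, hle⟩ := mem_oddPrimesUp.mp hr
    have := (Nat.prime_dvd_prime_iff_eq hp hrp).mp hd
    omega

/-- A residue with prescribed symbols at the odd primes up to `y`. -/
theorem exists_residue (y : ℕ) (e : ℝ)
    (he : ∀ q : ℕ, q.Prime → q ≠ 2 → ∃ r : ℕ, jn r q = e) :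
    ∃ a : ℕ, a < bigMod y ∧ a % 4 = 1 ∧ ∀ q : ℕ, q.Prime → q ≠ 2 → q ≤ y → jn a q = e := by
  classical
  let r : ℕ → ℕ := fun q => if h : q.Prime ∧ q ≠ 2 then (he q h.1 h.2).choose else 1
  obtain ⟨k, hk⟩ := Nat.chineseRemainderOfFinset r id (insert 4 (oddPrimesUp y))
    (fun i hi => by
      rcases mem_insert.mp hi with rfl | hi
      exacts [by norm_num, (mem_oddPrimesUp.mp hi).1.ne_zero]) (fun i hi j hj hij => by
      have h4 : ∀ q ∈ oddPrimesUp y, Nat.Coprime 4 q := fun q hq => by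
        obtain ⟨hp, h2, -⟩ := mem_oddPrimesUp.mp hq
        exact ((Nat.coprime_primes Nat.prime_two hp).mpr h2.symm).pow_left 2
      rcases mem_insert.mp (Finset.mem_coe.mp hi) with rfl | hi
      · exact h4 _ ((mem_insert.mp (Finset.mem_coe.mp hj)).resolve_left fun h => hij h.symm)
      · rcases mem_insert.mp (Finset.mem_coe.mp hj) with rfl | hj
        · exact (h4 _ hi).symm
        · exact (Nat.coprime_primes (mem_oddPrimesUp.mp hi).1 (mem_oddPrimesUp.mp hj).1).mpr hij)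
  refine ⟨k % bigMod y, Nat.mod_lt _ (bigMod_pos y), ?_, fun q hp h2 hq => ?_⟩
  · have h := hk 4 (mem_insert_self _ _)
    have e4 : r 4 = 1 := dif_neg fun h => absurd h.1 (by decide)
    rw [e4] at h
    rw [Nat.mod_mod_of_dvd _ (show 4 ∣ bigMod y from dvd_mul_right _ _)]
    exact h
  · have h := hk q (mem_insert_of_mem (mem_oddPrimesUp.mpr ⟨hp, h2, hq⟩))
    have hr : jn (r q) q = e := by
      simp only [r, dif_pos (show q.Prime ∧ q ≠ 2 from ⟨hp, h2⟩)]
      exact (he q hp h2).choose_spec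
    rw [← hr, jn_odd _ (hp.odd_of_ne_two h2), jn_odd _ (hp.odd_of_ne_two h2)]
    have hmod : k % bigMod y ≡ r q [MOD q] :=
      (Nat.mod_modEq k _).of_dvd (dvd_bigMod hp h2 hq) |>.trans h
    rw [jacobiSym.mod_left' (a₁ := -((k % bigMod y : ℕ) : ℤ)) (a₂ := -((r q : ℕ) : ℤ))
      (Int.ModEq.neg (Int.natCast_modEq_iff.mpr hmod))]

theorem exists_split_symbol {q : ℕ} (hp : q.Prime) (h2 : q ≠ 2) : ∃ r : ℕ, jn r q = 1 := by
  refine ⟨q - 1, ?_⟩
  rw [jn_odd _ (hp.odd_of_ne_two h2), Nat.cast_sub hp.one_lt.le,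
    jacobiSym.mod_left' (a₁ := -((q : ℤ) - ((1 : ℕ) : ℤ))) (a₂ := 1)
      (Int.modEq_iff_dvd.mpr ⟨1, by push_cast; ring⟩)]
  simp

theorem exists_inert_symbol {q : ℕ} (hp : q.Prime) (h2 : q ≠ 2) : ∃ r : ℕ, jn r q = -1 := by
  obtain ⟨z, hz⟩ := exists_jacobi_neg_one (hp.odd_of_ne_two h2) hp.prime.not_isSquare
  refine ⟨z * (q - 1), ?_⟩
  rw [jn_odd _ (hp.odd_of_ne_two h2), Nat.cast_mul, Nat.cast_sub hp.one_lt.le,
    jacobiSym.mod_left' (a₁ := -((z : ℤ) * ((q : ℤ) - ((1 : ℕ) : ℤ)))) (a₂ := (z : ℤ))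
      (Int.modEq_iff_dvd.mpr ⟨z, by push_cast; ring⟩), hz]
  simp

/-- What a candidate `n = a + M (k + 1)` satisfies. -/
theorem candidate {y a k : ℕ} (ha : a < bigMod y) (h4 : a % 4 = 1) (hk : k < scale y ^ 9)
    {e : ℝ} (he : e ≠ 0) (hq : ∀ q : ℕ, q.Prime → q ≠ 2 → q ≤ y → jn a q = e) :
    (a + bigMod y * (k + 1)) % 4 = 1 ∧ a + bigMod y * (k + 1) ≤ 2 * scale y ^ 10 ∧
      ∀ q : ℕ, q.Prime → q ≠ 2 → q ≤ y → ¬ q ∣ a + bigMod y * (k + 1) := by
  refine ⟨?_, ?_, fun q hp h2 hle hd => ?_⟩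
  · have : 4 ∣ bigMod y * (k + 1) := Dvd.dvd.mul_right ⟨_, rfl⟩ _
    omega
  · have h1 := bigMod_le y
    have h2 : bigMod y * (k + 1) ≤ scale y * scale y ^ 9 := Nat.mul_le_mul h1 hk
    have h3 : scale y ≤ scale y ^ 10 := Nat.le_self_pow (by norm_num) _
    rw [show scale y * scale y ^ 9 = scale y ^ 10 by ring] at h2
    omega
  · have hqa : q ∣ a := (Nat.dvd_add_left ((dvd_bigMod hp h2 hle).mul_right (k + 1))).mp hd
    have h0 := hq q hp h2 hle
    rw [jn_odd _ (hp.odd_of_ne_two h2), (jacobiSym.eq_zero_iff).mpr ⟨hp.ne_zero, by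
      rw [Int.gcd_eq_natAbs, Int.natAbs_neg, Int.natAbs_natCast, Int.natAbs_natCast,
        Nat.gcd_eq_right hqa]
      exact hp.ne_one⟩] at h0
    exact he (by simpa using h0.symm)

/-- The tail beyond `Z = P^8` is `O(1/P)`. -/
theorem abs_LVal_sub_le_scale {y n : ℕ} [NeZero n] (h4 : n % 4 = 1) (hn : n ≤ 2 * scale y ^ 10) :
    |LVal n - ∑ m ∈ Icc 1 (scale y ^ 8), jn n m / m| ≤ 144 / (scale y : ℝ) := by
  set P : ℝ := ((scale y : ℕ) : ℝ) with hP
  have hP1 : 1 ≤ P := by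
    rw [hP]; exact_mod_cast Nat.one_le_pow _ _ (by norm_num)
  have hP0 : 0 < P := by linarith
  have hZ1 : 1 ≤ scale y ^ 8 := Nat.one_le_pow _ _ (pow_pos (by norm_num) _)
  refine (abs_LVal_sub_le h4 hZ1).trans ?_
  have hnR : (n : ℝ) ≤ 2 * P ^ 10 := by rw [hP]; exact_mod_cast hn
  have h1 : Real.sqrt n ≤ 2 * P ^ 5 := by
    rw [Real.sqrt_le_iff]
    exact ⟨by positivity, hnR.trans (by nlinarith [pow_pos hP0 10])⟩
  have h2 : 1 + Real.log (4 * n) ≤ 18 * P := by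
    have h3 : Real.log (4 * n) ≤ Real.log (8 * P ^ 10) := Real.log_le_log
      (by have := NeZero.pos n; positivity) (by linarith)
    rw [Real.log_mul (x := 8) (by norm_num) (by positivity), Real.log_pow] at h3
    have h4 := Real.log_le_sub_one_of_pos (show (0 : ℝ) < 8 by norm_num)
    have h5 := Real.log_le_sub_one_of_pos hP0
    push_cast at h3
    linarith
  have hl : 0 ≤ 1 + Real.log (4 * n) := by
    have : (0 : ℝ) ≤ Real.log (4 * n) := Real.log_nonneg (by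
      have : (1 : ℝ) ≤ n := by exact_mod_cast NeZero.pos n
      linarith)
    linarith
  push_cast
  rw [← hP]
  calc 2 * (2 * Real.sqrt n * (1 + Real.log (4 * n))) / P ^ 8
      ≤ 2 * (2 * (2 * P ^ 5) * (18 * P)) / P ^ 8 := by gcongr
    _ = 144 / P ^ 2 := by field_simp; ring
    _ ≤ 144 / P := by
        gcongr
        nlinarith

theorem le_scale (y : ℕ) : y ≤ scale y :=
  ((Nat.le_add_right y 2).trans (Nat.lt_pow_self (by norm_num)).le)

/-- **A large value.** -/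
theorem exists_large {y : ℕ} (hy : 2 ≤ y) :
    ∃ n : ℕ, ∃ _ : NeZero n, n % 4 = 1 ∧ n ≤ 2 * scale y ^ 10 ∧
      (∀ q : ℕ, q.Prime → q ≠ 2 → q ≤ y → ¬ q ∣ n) ∧
      1 / 2 * (Real.log y - Real.log 2) - 145 / (scale y : ℝ) ≤ LVal n := by
  obtain ⟨a, ha, ha4, haq⟩ := exists_residue y 1 fun q hp h2 => exists_split_symbol hp h2
  set M := bigMod y with hM
  set P := scale y with hP
  set Z := P ^ 8 with hZ
  set K := P ^ 9 with hK
  have hP0 : 0 < P := pow_pos (by norm_num) _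
  have hsum : ∑ _k ∈ range K, ((1 / 2 * (Real.log y - Real.log 2)) - 1 / (P : ℝ)) ≤
      ∑ k ∈ range K, ∑ m ∈ Icc 1 Z, jn (a + M * (k + 1)) m / m := by
    rw [Finset.sum_comm]
    simp only [← Finset.sum_div]
    refine le_trans ?_ (Finset.sum_le_sum (s := Icc 1 Z) fun m _ =>
      div_le_div_of_nonneg_right (inner_ge (fun q hp h2 hq => dvd_bigMod hp h2 hq)
        (fun q hp hd => le_of_dvd_bigMod hp hd) hy haq K m) (Nat.cast_nonneg m))
    simp only [sub_div, ite_div, zero_div, Finset.sum_sub_distrib, Finset.sum_const, card_range,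
      nsmul_eq_mul]
    rw [mul_sub]
    have hyZ : y ≤ Z := (le_scale y).trans (Nat.le_self_pow (by norm_num) _)
    have h2 : ∀ m : ℕ, (if Odd m ∧ m ≤ y then (K : ℝ) / m else 0) =
        (K : ℝ) * if Odd m ∧ m ≤ y then (m : ℝ)⁻¹ else 0 := fun m => by
      rw [mul_ite, mul_zero, ← div_eq_mul_inv]
    have h3 : ∑ m ∈ Icc 1 Z, ((m : ℝ) / m) = (K : ℝ) * (1 / (P : ℝ)) := by
      rw [Finset.sum_congr rfl fun m hm => div_self (by
        rw [mem_Icc] at hm; exact_mod_cast (by omega : m ≠ 0))]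
      rw [hK, hZ]
      simp only [Finset.sum_const, Nat.card_Icc, nsmul_eq_mul, mul_one, add_tsub_cancel_right]
      push_cast
      field_simp
    rw [h3, Finset.sum_congr rfl fun m _ => h2 m, ← Finset.mul_sum]
    have := mul_le_mul_of_nonneg_left (sum_odd_inv_ge hy hyZ) (Nat.cast_nonneg K : (0 : ℝ) ≤ K)
    linarith
  obtain ⟨k, hk, hle⟩ := Finset.exists_le_of_sum_le
    (nonempty_range_iff.mpr (pow_pos hP0 9).ne') hsum
  rw [mem_range] at hk
  obtain ⟨c1, c2, c3⟩ := candidate ha ha4 hk one_ne_zero haq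
  have : NeZero (a + M * (k + 1)) := ⟨by omega⟩
  refine ⟨_, this, c1, c2, c3, ?_⟩
  have h := (abs_le.mp (abs_LVal_sub_le_scale (y := y) c1 c2)).1
  rw [show (145 : ℝ) / P = 1 / P + 144 / P by ring]
  linarith

open scoped Classical in
/-- **A small value.** -/
theorem exists_small {y : ℕ} (hy : 2 ≤ y) :
    ∃ n : ℕ, ∃ _ : NeZero n, n % 4 = 1 ∧ n ≤ 2 * scale y ^ 10 ∧
      (∀ q : ℕ, q.Prime → q ≠ 2 → q ≤ y → ¬ q ∣ n) ∧
      LVal n ≤ 4 * mertProd y + (mertProd y)⁻¹ / y + 146 / (scale y : ℝ) := by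
  obtain ⟨a, ha, ha4, haq⟩ := exists_residue y (-1) fun q hp h2 => exists_inert_symbol hp h2
  set M := bigMod y with hM
  set P := scale y with hP
  set Z := P ^ 8 with hZ
  set K := P ^ 9 with hK
  have hP0 : 0 < P := pow_pos (by norm_num) _
  have hPR : (0 : ℝ) < P := by exact_mod_cast hP0
  have hsum : ∑ k ∈ range K, ∑ m ∈ Icc 1 Z, jn (a + M * (k + 1)) m / m ≤
      ∑ _k ∈ range K, (4 * mertProd y + (mertProd y)⁻¹ / y + 2 / (P : ℝ)) := by
    rw [Finset.sum_comm]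
    simp only [← Finset.sum_div]
    refine le_trans (Finset.sum_le_sum (s := Icc 1 Z) fun m _ =>
      div_le_div_of_nonneg_right (inner_le (fun q hp h2 hq => dvd_bigMod hp h2 hq)
        (fun q hp hd => le_of_dvd_bigMod hp hd) (a := a) hy K m) (Nat.cast_nonneg m)) ?_
    simp only [add_div, ite_div, zero_div, Finset.sum_add_distrib, Finset.sum_const, card_range,
      nsmul_eq_mul]
    have h2 : ∀ m : ℕ, (if SmoothUp y m then (K : ℝ) * jn a m / m else 0) =
        (K : ℝ) * if SmoothUp y m then jn a m / m else 0 := fun m => by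
      rw [mul_ite, mul_zero, mul_div_assoc]
    have h2' : ∀ m : ℕ,
        (if ∃ u j : ℕ, m = u * j ^ 2 ∧ SmoothUp y u ∧ y < j then (K : ℝ) / m else 0) = (K : ℝ) *
          if ∃ u j : ℕ, m = u * j ^ 2 ∧ SmoothUp y u ∧ y < j then (m : ℝ)⁻¹ else 0 := fun m => by
      rw [mul_ite, mul_zero, ← div_eq_mul_inv]
    have h3 : ∑ m ∈ Icc 1 Z, ((m : ℝ) / m) = (K : ℝ) * (1 / (P : ℝ)) := by
      rw [Finset.sum_congr rfl fun m hm => div_self (by
        rw [mem_Icc] at hm; exact_mod_cast (by omega : m ≠ 0))]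
      rw [hK, hZ]
      simp only [Finset.sum_const, Nat.card_Icc, nsmul_eq_mul, mul_one, add_tsub_cancel_right]
      push_cast
      field_simp
    rw [h3, Finset.sum_congr rfl fun m _ => h2 m, Finset.sum_congr rfl fun m _ => h2' m,
      ← Finset.mul_sum, ← Finset.mul_sum]
    have hK0 : (0 : ℝ) ≤ K := Nat.cast_nonneg K
    have hS := sum_jn_smooth_le (Z := Z) (Nat.one_le_pow _ _ hP0) haq
    have hroot : (4 : ℝ) ^ (y + 1) / Real.sqrt Z ≤ 1 / (P : ℝ) := by
      have e : Real.sqrt Z = (P : ℝ) ^ 4 := by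
        rw [hZ, Nat.cast_pow, show (P : ℝ) ^ 8 = ((P : ℝ) ^ 4) ^ 2 by ring,
          Real.sqrt_sq (by positivity)]
      have hle : (4 : ℝ) ^ (y + 1) ≤ P := by
        rw [hP, scale]; push_cast; exact pow_le_pow_right₀ (by norm_num) (by omega)
      have hP1 : (1 : ℝ) ≤ P := by exact_mod_cast hP0
      rw [e, div_le_div_iff₀ (by positivity) hPR]
      nlinarith [one_le_pow₀ (n := 2) hP1]
    calc _ ≤ (K : ℝ) * (4 * mertProd y + 1 / P) + (K : ℝ) * ((mertProd y)⁻¹ / y) +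
          (K : ℝ) * (1 / P) := by
          gcongr
          · exact hS.trans (by linarith)
          · exact sum_inv_square_part_le (by omega) Z
      _ = _ := by ring
  obtain ⟨k, hk, hle⟩ := Finset.exists_le_of_sum_le
    (nonempty_range_iff.mpr (pow_pos hP0 9).ne') hsum
  rw [mem_range] at hk
  obtain ⟨c1, c2, c3⟩ := candidate ha ha4 hk (by norm_num : (-1 : ℝ) ≠ 0) haq
  have : NeZero (a + M * (k + 1)) := ⟨by omega⟩
  refine ⟨_, this, c1, c2, c3, ?_⟩
  have h := (abs_le.mp (abs_LVal_sub_le_scale (y := y) c1 c2)).2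
  rw [show (146 : ℝ) / P = 2 / P + 144 / P by ring]
  linarith

end FA.ClassNumberExtremes
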